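import Mathlib
import Fermat.Prelude.Def_GaloisRep_CompletionBridge
import Fermat.Agent.QbarInst
import Fermat.Agent.FrobExists

/-!
# Centres of valuation subrings on number fields
-/

set_option autoImplicit false

open NumberField IsDedekindDomain
open Fermat.Agent.FrobExists

namespace Fermat.Agent.CFT.W

section place

variable {L : Type*} [Field L] [NumberField L] {E : Type*} [Field E]

/-- The map `𝓞 L → A` induced by a ring homomorphism `L → E`. -/
def toA (A : ValuationSubring E) (i : L →+* E) : 𝓞 L →+* A :=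
  (i.comp (algebraMap (𝓞 L) L)).codRestrict A.toSubring
    (fun x => mem_of_isIntegral A ((RingOfIntegers.isIntegral_coe x).map i.toIntAlgHom))

omit [NumberField L] in
@[simp] theorem coe_toA (A : ValuationSubring E) (i : L →+* E) (x : 𝓞 L) :
    ((toA A i x : A) : E) = i x := rfl

/-- The centre on `𝓞 L`. -/
def centerIdeal (A : ValuationSubring E) (i : L →+* E) : Ideal (𝓞 L) :=
  (IsLocalRing.maximalIdeal A).comap (toA A i)

instance (A : ValuationSubring E) (i : L →+* E) : (centerIdeal A i).IsPrime :=
  Ideal.IsPrime.comap _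

omit [NumberField L] in
theorem mem_centerIdeal (A : ValuationSubring E) (i : L →+* E) (x : 𝓞 L) :
    x ∈ centerIdeal A i ↔ i x ∈ A.nonunits := by
  rw [centerIdeal, Ideal.mem_comap, ← coe_toA A i x, ValuationSubring.coe_mem_nonunits_iff]

theorem natCast_mem_centerIdeal {A : ValuationSubring E} (i : L →+* E) {q : ℕ}
    (hA : A.LiesOverPrime q) : (q : 𝓞 L) ∈ centerIdeal A i := by
  rw [mem_centerIdeal]
  simpa using! hA

theorem centerIdeal_ne_bot {A : ValuationSubring E} (i : L →+* E) {q : ℕ} (hq : q ≠ 0)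
    (hA : A.LiesOverPrime q) : centerIdeal A i ≠ ⊥ := by
  intro h
  have h1 := natCast_mem_centerIdeal i hA
  rw [h, Ideal.mem_bot] at h1
  exact hq (by exact_mod_cast h1)

/-- The centre as a height one prime. -/
def place (A : ValuationSubring E) (i : L →+* E) {q : ℕ} (hq : q ≠ 0)
    (hA : A.LiesOverPrime q) : HeightOneSpectrum (𝓞 L) where
  asIdeal := centerIdeal A i
  isPrime := inferInstance
  ne_bot := centerIdeal_ne_bot i hq hA

@[simp] theorem place_asIdeal (A : ValuationSubring E) (i : L →+* E) {q : ℕ} (hq : q ≠ 0)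
    (hA : A.LiesOverPrime q) : (place A i hq hA).asIdeal = centerIdeal A i := rfl

theorem mem_place (A : ValuationSubring E) (i : L →+* E) {q : ℕ} (hq : q ≠ 0)
    (hA : A.LiesOverPrime q) (x : 𝓞 L) : x ∈ (place A i hq hA).asIdeal ↔ i x ∈ A.nonunits :=
  mem_centerIdeal A i x

theorem val_coe_eq_one {A : ValuationSubring E} {i : L →+* E} {x : 𝓞 L}
    (hx : x ∉ centerIdeal A i) : A.valuation (i x) = 1 := by
  rw [mem_centerIdeal, ValuationSubring.mem_nonunits_iff, not_lt] at hx
  refine le_antisymm ?_ hx
  rw [ValuationSubring.valuation_le_one_iff]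
  exact (toA A i x).2

variable (A : ValuationSubring E) (i : L →+* E) {q : ℕ} (hq : q ≠ 0) (hA : A.LiesOverPrime q)

theorem map_mem_of_valuation_le_one {x : L} (hx : (place A i hq hA).valuation L x ≤ 1) :
    i x ∈ A := by
  obtain ⟨n, ⟨d, hd⟩, hnd⟩ := (place A i hq hA).exists_primeCompl_mul_eq_of_integer x hx
  have h1 : A.valuation (i (algebraMap (𝓞 L) L d)) = 1 := val_coe_eq_one hd
  have h2 := congrArg (fun y => A.valuation (i y)) hnd
  simp only [map_mul, h1, mul_one] at h2
  rw [← ValuationSubring.valuation_le_one_iff, h2, ValuationSubring.valuation_le_one_iff]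
  exact (toA A i n).2

theorem map_mem_nonunits_of_valuation_lt_one {x : L}
    (hx : (place A i hq hA).valuation L x < 1) : i x ∈ A.nonunits := by
  obtain ⟨n, ⟨d, hd⟩, hnd⟩ := (place A i hq hA).exists_primeCompl_mul_eq_of_integer x hx.le
  have h1 : A.valuation (i (algebraMap (𝓞 L) L d)) = 1 := val_coe_eq_one hd
  have h2 := congrArg (fun y => A.valuation (i y)) hnd
  simp only [map_mul, h1, mul_one] at h2
  rw [ValuationSubring.mem_nonunits_iff, h2, ← ValuationSubring.mem_nonunits_iff]
  have h3 := congrArg ((place A i hq hA).valuation L) hnd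
  have hd' : (place A i hq hA).valuation L (algebraMap (𝓞 L) L d) = 1 := by
    rw [HeightOneSpectrum.valuation_eq_one_iff_notMem]
    exact hd
  rw [map_mul, hd', mul_one] at h3
  have h4 : (place A i hq hA).valuation L (algebraMap (𝓞 L) L n) < 1 := by rwa [← h3]
  rw [HeightOneSpectrum.valuation_lt_one_iff_mem] at h4
  exact (mem_centerIdeal A i n).1 h4

theorem valuation_le_one_iff {x : L} : (place A i hq hA).valuation L x ≤ 1 ↔ i x ∈ A := by
  refine ⟨map_mem_of_valuation_le_one A i hq hA, fun h => ?_⟩
  by_contra hcon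
  rw [not_le] at hcon
  have h1 : (place A i hq hA).valuation L x⁻¹ < 1 := by
    rw [map_inv₀]
    exact inv_lt_one_of_one_lt₀ hcon
  have h2 := map_mem_nonunits_of_valuation_lt_one A i hq hA h1
  rw [ValuationSubring.mem_nonunits_iff, map_inv₀, map_inv₀] at h2
  rw [← ValuationSubring.valuation_le_one_iff] at h
  have h3 : A.valuation (i x) ≠ 0 := by
    rw [(Valuation.ne_zero_iff _), map_ne_zero]
    rintro rfl
    rw [map_zero] at hcon
    exact absurd hcon (not_lt.2 zero_le_one)
  have h4 : 1 < A.valuation (i x) := by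
    rwa [inv_lt_one₀ (zero_lt_iff.2 h3)] at h2
  exact absurd h (not_le.2 h4)

theorem valuation_lt_one_iff {x : L} :
    (place A i hq hA).valuation L x < 1 ↔ A.valuation (i x) < 1 := by
  constructor
  · intro h
    exact (ValuationSubring.mem_nonunits_iff _).1 (map_mem_nonunits_of_valuation_lt_one A i hq hA h)
  · intro h
    rcases eq_or_ne x 0 with rfl | hx
    · simp
    by_contra hcon
    rw [not_lt] at hcon
    have h1 : (place A i hq hA).valuation L x⁻¹ ≤ 1 := by
      rw [map_inv₀]
      exact inv_le_one_of_one_le₀ hcon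
    rw [valuation_le_one_iff, ← ValuationSubring.valuation_le_one_iff, map_inv₀, map_inv₀] at h1
    have h3 : A.valuation (i x) ≠ 0 := by
      rw [(Valuation.ne_zero_iff _), map_ne_zero]
      exact hx
    rw [inv_le_one₀ (zero_lt_iff.2 h3)] at h1
    exact absurd h (not_lt.2 h1)

theorem valuation_eq_one_iff {x : L} :
    (place A i hq hA).valuation L x = 1 ↔ A.valuation (i x) = 1 := by
  have h1 := valuation_le_one_iff A i hq hA (x := x)
  have h2 := valuation_lt_one_iff A i hq hA (x := x)
  rw [← ValuationSubring.valuation_le_one_iff] at h1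
  constructor
  · intro h
    exact le_antisymm (h1.1 h.le) (not_lt.1 fun h' => absurd (h2.2 h') (by rw [h]; exact lt_irrefl _))
  · intro h
    exact le_antisymm (h1.2 h.le) (not_lt.1 fun h' => absurd (h2.1 h') (by rw [h]; exact lt_irrefl _))

theorem valuation_le_iff {x y : L} :
    (place A i hq hA).valuation L x ≤ (place A i hq hA).valuation L y ↔
      A.valuation (i x) ≤ A.valuation (i y) := by
  rcases eq_or_ne y 0 with rfl | hy
  · rw [map_zero, map_zero, map_zero, le_zero_iff, le_zero_iff, Valuation.zero_iff,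
      Valuation.zero_iff, map_eq_zero]
  · have h := valuation_le_one_iff A i hq hA (x := x / y)
    rw [← ValuationSubring.valuation_le_one_iff, map_div₀, map_div₀, map_div₀] at h
    rwa [div_le_one₀ (zero_lt_iff.2 ((Valuation.ne_zero_iff _).2 hy)),
      div_le_one₀ (zero_lt_iff.2 ((Valuation.ne_zero_iff _).2 (by simpa using hy)))] at h

/-- The centre is characterised by its ideal. -/
theorem place_eq_iff {E' : Type*} [Field E'] {A' : ValuationSubring E'} {i' : L →+* E'}
    {q' : ℕ} (hq' : q' ≠ 0) (hA' : A'.LiesOverPrime q') :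
    place A i hq hA = place A' i' hq' hA' ↔ ∀ x : 𝓞 L, i x ∈ A.nonunits ↔ i' x ∈ A'.nonunits := by
  rw [HeightOneSpectrum.ext_iff, Ideal.ext_iff]
  simp only [mem_place]

theorem exists_valuationSubring_place (L : Type*) [Field L] [NumberField L] (E : Type*) [Field E]
    (i : L →+* E) (v : HeightOneSpectrum (𝓞 L)) {q : ℕ} (hq : q ≠ 0) (hqv : (q : 𝓞 L) ∈ v.asIdeal) :
    ∃ (A : ValuationSubring E) (hA : A.LiesOverPrime q), place A i hq hA = v := by
  let f : 𝓞 L →+* E := i.comp (algebraMap (𝓞 L) L)
  have hf : Function.Injective f := i.injective.comp RingOfIntegers.coe_injective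
  let e : 𝓞 L ≃+* f.range := RingEquiv.ofBijective f.rangeRestrict
    ⟨fun x y h => hf (congrArg Subtype.val h), f.rangeRestrict_surjective⟩
  let I : Ideal f.range := v.asIdeal.map (e : 𝓞 L →+* f.range)
  have hI : I ≠ ⊤ := by
    intro h
    have h1 : v.asIdeal = ⊤ := by
      have h2 := congrArg (Ideal.comap (e : 𝓞 L →+* f.range)) h
      have h3 := Ideal.comap_map_of_bijective (e : 𝓞 L →+* f.range) e.bijective (I := v.asIdeal)
      rw [Ideal.comap_top] at h2
      exact h3.symm.trans h2
    exact v.isPrime.ne_top h1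
  obtain ⟨B, -, hB⟩ := Ideal.image_subset_nonunits_valuationSubring I hI
  have hmem : ∀ x ∈ v.asIdeal, i x ∈ B.nonunits := by
    intro x hx
    exact hB ⟨e x, Ideal.mem_map_of_mem _ hx, rfl⟩
  have hlies : B.LiesOverPrime q := by
    have := hmem _ hqv
    unfold ValuationSubring.LiesOverPrime
    simpa using this
  refine ⟨B, hlies, ?_⟩
  apply HeightOneSpectrum.ext
  symm
  refine (v.isMaximal).eq_of_le (Ideal.IsPrime.ne_top (place B i hq hlies).isPrime) ?_
  intro x hx
  rw [mem_place]
  exact hmem x hx

end place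

end Fermat.Agent.CFT.W
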