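import Mathlib
import Fermat.Agent.CFT.W.Place

/-!
# Embeddings of a number field in `PadicAlgCl q` and primes above `q`
-/

set_option autoImplicit false

open NumberField IsDedekindDomain Polynomial
open scoped NNReal
open Fermat.Agent.FrobExists

namespace Fermat.Agent.CFT.W

variable (q : ℕ) [Fact q.Prime]

theorem norm_natCast_q : ‖(q : PadicAlgCl q)‖ = (q : ℝ)⁻¹ := by
  have h := PadicAlgCl.norm_extends q (q : ℚ_[q])
  rw [Padic.norm_p] at h
  rw [← h]
  simp

theorem mem_padicIntegers_nonunits_iff {x : PadicAlgCl q} :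
    x ∈ (padicIntegers q).nonunits ↔ ‖x‖ < 1 := by
  rw [ValuationSubring.mem_nonunits_iff_or, mem_padicIntegers_iff]
  constructor
  · rintro (rfl | h)
    · simp
    · rw [not_le, nnnorm_inv] at h
      have hx : x ≠ 0 := by
        rintro rfl
        simp at h
      have h2 : 0 < ‖x‖₊ := by simpa using hx
      have h3 : ‖x‖₊ < 1 := by
        rwa [one_lt_inv₀ h2] at h
      exact_mod_cast h3
  · intro h
    rcases eq_or_ne x 0 with rfl | hx
    · exact Or.inl rfl
    · right
      rw [not_le, nnnorm_inv]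
      have h2 : 0 < ‖x‖₊ := by simpa using hx
      rw [one_lt_inv₀ h2]
      exact_mod_cast h

theorem padicIntegers_liesOverPrime : (padicIntegers q).LiesOverPrime q := by
  unfold ValuationSubring.LiesOverPrime
  rw [mem_padicIntegers_nonunits_iff, norm_natCast_q]
  exact inv_lt_one_of_one_lt₀ (by exact_mod_cast (Fact.out : q.Prime).one_lt)

variable {q}

theorem padicIntegers_valuation_le_iff {x y : PadicAlgCl q} :
    (padicIntegers q).valuation x ≤ (padicIntegers q).valuation y ↔ ‖x‖ ≤ ‖y‖ := by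
  rcases eq_or_ne y 0 with rfl | hy
  · rw [map_zero, le_zero_iff, Valuation.zero_iff, norm_zero, norm_le_zero_iff]
  · rw [← div_le_one₀ (zero_lt_iff.2 ((Valuation.ne_zero_iff _).2 hy)), ← map_div₀,
      ValuationSubring.valuation_le_one_iff, mem_padicIntegers_iff, nnnorm_div]
    have h2 : 0 < ‖y‖₊ := by simpa using hy
    rw [div_le_one₀ h2]
    exact Iff.rfl

section
variable {L : Type*} [Field L] [NumberField L]

/-- The prime of `𝓞 L` attached to an embedding in `PadicAlgCl q`. -/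
noncomputable def pl (φ : L →+* PadicAlgCl q) : HeightOneSpectrum (𝓞 L) :=
  place (padicIntegers q) φ (Fact.out : q.Prime).ne_zero (padicIntegers_liesOverPrime q)

theorem mem_pl (φ : L →+* PadicAlgCl q) (x : 𝓞 L) : x ∈ (pl φ).asIdeal ↔ ‖φ x‖ < 1 := by
  rw [pl, mem_place, mem_padicIntegers_nonunits_iff]

theorem natCast_mem_pl (φ : L →+* PadicAlgCl q) : (q : 𝓞 L) ∈ (pl φ).asIdeal := by
  rw [mem_pl]
  have := norm_natCast_q q
  simp only [map_natCast]
  rw [this]
  exact inv_lt_one_of_one_lt₀ (by exact_mod_cast (Fact.out : q.Prime).one_lt)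

theorem pl_valuation_le_iff (φ : L →+* PadicAlgCl q) (x y : L) :
    (pl φ).valuation L x ≤ (pl φ).valuation L y ↔ ‖φ x‖ ≤ ‖φ y‖ := by
  rw [pl, valuation_le_iff, padicIntegers_valuation_le_iff]

theorem pl_valuation_le_one_iff (φ : L →+* PadicAlgCl q) (x : L) :
    (pl φ).valuation L x ≤ 1 ↔ ‖φ x‖ ≤ 1 := by
  have := pl_valuation_le_iff φ x 1
  simpa using this

theorem pl_valuation_eq_iff (φ : L →+* PadicAlgCl q) (x y : L) :
    (pl φ).valuation L x = (pl φ).valuation L y ↔ ‖φ x‖ = ‖φ y‖ := by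
  rw [le_antisymm_iff, le_antisymm_iff, pl_valuation_le_iff, pl_valuation_le_iff]

theorem pl_valuation_eq_one_iff (φ : L →+* PadicAlgCl q) (x : L) :
    (pl φ).valuation L x = 1 ↔ ‖φ x‖ = 1 := by
  have := pl_valuation_eq_iff φ x 1
  simpa using this

theorem pl_valuation_lt_one_iff (φ : L →+* PadicAlgCl q) (x : L) :
    (pl φ).valuation L x < 1 ↔ ‖φ x‖ < 1 := by
  have := pl_valuation_le_iff φ 1 x
  rw [← not_le, ← not_le]
  simpa using not_congr this

/-- Two embeddings with the same prime have the same absolute value. -/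
theorem norm_eq_of_pl_eq {φ₁ φ₂ : L →+* PadicAlgCl q} (h : pl φ₁ = pl φ₂) (x : L) :
    ‖φ₁ x‖ = ‖φ₂ x‖ := by
  rcases eq_or_ne x 0 with rfl | hx
  · simp
  set v := pl φ₁ with hv
  have hq0 : (q : L) ≠ 0 := by
    have := (Fact.out : q.Prime).ne_zero
    exact_mod_cast this
  have hvx : v.valuation L x ≠ 0 := (Valuation.ne_zero_iff _).2 hx
  have hvq : v.valuation L (q : L) ≠ 0 := (Valuation.ne_zero_iff _).2 hq0
  have hvq1 : v.valuation L (q : L) < 1 := by
    have := natCast_mem_pl φ₁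
    rw [← hv, ← HeightOneSpectrum.valuation_lt_one_iff_mem (K := L)] at this
    simpa using this
  -- exponents
  obtain ⟨a, ha⟩ : ∃ a : ℤ, v.valuation L x = WithZero.exp a :=
    ⟨WithZero.log (v.valuation L x), (WithZero.exp_log hvx).symm⟩
  obtain ⟨e, he⟩ : ∃ e : ℤ, v.valuation L (q : L) = WithZero.exp e :=
    ⟨WithZero.log (v.valuation L (q : L)), (WithZero.exp_log hvq).symm⟩
  have he0 : e ≠ 0 := by
    rintro rfl
    rw [he, WithZero.exp_zero] at hvq1
    exact lt_irrefl _ hvq1
  have hone : v.valuation L (x ^ e / (q : L) ^ a) = 1 := by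
    rw [map_div₀, map_zpow₀, map_zpow₀, ha, he, ← WithZero.exp_zsmul, ← WithZero.exp_zsmul]
    rw [smul_eq_mul, smul_eq_mul, mul_comm]
    exact div_self WithZero.exp_ne_zero
  have h1 := (pl_valuation_eq_one_iff φ₁ _).1 hone
  rw [h] at hone
  have h2 := (pl_valuation_eq_one_iff φ₂ _).1 hone
  rw [← h1] at h2
  simp only [map_div₀, map_zpow₀, map_natCast, norm_div, norm_zpow] at h2
  have hqn : ‖(q : PadicAlgCl q)‖ ^ a ≠ 0 := by
    apply zpow_ne_zero
    rw [norm_ne_zero_iff]
    exact_mod_cast (Fact.out : q.Prime).ne_zero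
  rw [div_left_inj' hqn] at h2
  exact (zpow_left_inj₀ (norm_nonneg _) (norm_nonneg _) he0).1 h2.symm

/-- Embeddings with the same absolute value are conjugate over `ℚ_q`. -/
theorem exists_conj_of_norm_eq (φ₁ φ₂ : L →+* PadicAlgCl q) (h : ∀ x, ‖φ₁ x‖ = ‖φ₂ x‖) :
    ∃ τ : PadicAlgCl q ≃ₐ[ℚ_[q]] PadicAlgCl q, ∀ x, τ (φ₁ x) = φ₂ x := by
  obtain ⟨θ, hθ⟩ := Field.exists_primitive_element ℚ L
  set a := φ₁ θ with ha
  set b := φ₂ θ with hb
  have hint : IsIntegral ℚ_[q] a := Algebra.IsIntegral.isIntegral a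
  set P := minpoly ℚ_[q] a with hP
  -- evaluation of rational polynomials
  have hev : ∀ g : ℚ[X], ‖aeval a g‖ = ‖aeval b g‖ := by
    intro g
    have e1 : aeval a g = φ₁ (aeval θ g) := by
      rw [ha, aeval_def, aeval_def, hom_eval₂]
      congr 1
      exact RingHom.ext_rat _ _
    have e2 : aeval b g = φ₂ (aeval θ g) := by
      rw [hb, aeval_def, aeval_def, hom_eval₂]
      congr 1
      exact RingHom.ext_rat _ _
    rw [e1, e2, h]
  -- P vanishes at b
  have hPb : aeval b P = 0 := by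
    rw [← norm_le_zero_iff]
    -- approximations
    set n := P.natDegree with hn
    set D : ℝ := (n + 1) * (1 + ‖a‖) ^ n + (n + 1) * (1 + ‖b‖) ^ n with hD
    have hbound : ∀ ε : ℝ, 0 < ε → ‖aeval b P‖ ≤ ε * D := by
      intro ε hε
      choose r hr using fun i => Padic.rat_dense q (P.coeff i) hε
      let g : ℚ[X] := ∑ i ∈ Finset.range (n + 1), C (r i) * X ^ i
      have hdiff : ∀ c : PadicAlgCl q, ‖aeval c P - aeval c g‖ ≤ ε * ((n + 1) * (1 + ‖c‖) ^ n) := by
        intro c
        have e1 : aeval c P = ∑ i ∈ Finset.range (n + 1), algebraMap ℚ_[q] (PadicAlgCl q) (P.coeff i) * c ^ i := by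
          rw [aeval_eq_sum_range, ← hn]
          simp only [Algebra.smul_def]
        have e2 : aeval c g = ∑ i ∈ Finset.range (n + 1),
            algebraMap ℚ_[q] (PadicAlgCl q) ((r i : ℚ) : ℚ_[q]) * c ^ i := by
          simp only [g, map_sum, map_mul, map_pow, aeval_X, aeval_C]
          refine Finset.sum_congr rfl fun i _ => ?_
          congr 1
        rw [e1, e2, ← Finset.sum_sub_distrib]
        calc ‖∑ i ∈ Finset.range (n + 1), (algebraMap ℚ_[q] (PadicAlgCl q) (P.coeff i) * c ^ i -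
              algebraMap ℚ_[q] (PadicAlgCl q) ((r i : ℚ) : ℚ_[q]) * c ^ i)‖
            ≤ ∑ i ∈ Finset.range (n + 1), ‖algebraMap ℚ_[q] (PadicAlgCl q) (P.coeff i) * c ^ i -
              algebraMap ℚ_[q] (PadicAlgCl q) ((r i : ℚ) : ℚ_[q]) * c ^ i‖ := norm_sum_le _ _
          _ ≤ ∑ i ∈ Finset.range (n + 1), ε * (1 + ‖c‖) ^ n := by
              refine Finset.sum_le_sum fun i hi => ?_
              rw [← sub_mul, ← map_sub, norm_mul, norm_pow]
              have h1 : ‖algebraMap ℚ_[q] (PadicAlgCl q) (P.coeff i - ((r i : ℚ) : ℚ_[q]))‖ ≤ ε := by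
                rw [norm_algebraMap']
                exact (hr i).le
              have h2 : ‖c‖ ^ i ≤ (1 + ‖c‖) ^ n := by
                calc ‖c‖ ^ i ≤ (1 + ‖c‖) ^ i :=
                      pow_le_pow_left₀ (norm_nonneg _) (by linarith) _
                  _ ≤ (1 + ‖c‖) ^ n :=
                      pow_le_pow_right₀ (by linarith [norm_nonneg c])
                        (by have := Finset.mem_range.1 hi; omega)
              exact mul_le_mul h1 h2 (by positivity) hε.le
          _ = ε * ((n + 1) * (1 + ‖c‖) ^ n) := by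
              rw [Finset.sum_const, Finset.card_range, nsmul_eq_mul]
              push_cast
              ring
      have hga : ‖aeval a g‖ ≤ ε * ((n + 1) * (1 + ‖a‖) ^ n) := by
        have := hdiff a
        rw [hP, minpoly.aeval, zero_sub, norm_neg] at this
        exact this
      have hgb : ‖aeval b g‖ ≤ ε * ((n + 1) * (1 + ‖a‖) ^ n) := by rw [← hev]; exact hga
      calc ‖aeval b P‖ = ‖(aeval b P - aeval b g) + aeval b g‖ := by rw [sub_add_cancel]
        _ ≤ ‖aeval b P - aeval b g‖ + ‖aeval b g‖ := norm_add_le _ _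
        _ ≤ ε * ((n + 1) * (1 + ‖b‖) ^ n) + ε * ((n + 1) * (1 + ‖a‖) ^ n) := add_le_add (hdiff b) hgb
        _ = ε * D := by rw [hD]; ring
    have hD0 : 0 < D := by positivity
    by_contra hcon
    rw [not_le] at hcon
    have := hbound (‖aeval b P‖ / (2 * D)) (by positivity)
    rw [div_mul_eq_mul_div, le_div_iff₀ (by positivity)] at this
    nlinarith
  -- conjugacy
  have hconj : IsConjRoot ℚ_[q] a b := by
    rw [IsConjRoot]
    exact minpoly.eq_of_irreducible_of_monic (minpoly.irreducible hint) hPb (minpoly.monic hint)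
  obtain ⟨τ, hτ⟩ := (isConjRoot_iff_exists_algEquiv (K := ℚ_[q]) (L := PadicAlgCl q)).1 hconj.symm
  refine ⟨τ, ?_⟩
  intro x
  have hx : x ∈ IntermediateField.adjoin ℚ {θ} := by rw [hθ]; trivial
  rw [IntermediateField.mem_adjoin_simple_iff] at hx
  obtain ⟨g, g', rfl⟩ := hx
  have key : ∀ g : ℚ[X], τ (φ₁ (aeval θ g)) = φ₂ (aeval θ g) := by
    intro g
    have e1 : τ (φ₁ (aeval θ g)) = eval₂ (algebraMap ℚ (PadicAlgCl q)) b g := by
      rw [aeval_def, hom_eval₂, ← RingHom.coe_coe τ, hom_eval₂]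
      congr 1
      exact RingHom.ext_rat _ _
    have e2 : φ₂ (aeval θ g) = eval₂ (algebraMap ℚ (PadicAlgCl q)) b g := by
      rw [aeval_def, hom_eval₂]
      congr 1
      exact RingHom.ext_rat _ _
    rw [e1, e2]
  rw [map_div₀, map_div₀, map_div₀, key, key]

end

end Fermat.Agent.CFT.W
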