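import Mathlib
import Fermat.Agent.CFT.W.Padic

/-!
# Embeddings of `L ⊂ ℚ̄` in `PadicAlgCl q`, double cosets and primes above `q`
-/

set_option autoImplicit false

open NumberField IsDedekindDomain Polynomial Pointwise
open scoped NNReal
open Fermat.Agent.FrobExists

namespace Fermat.Agent.CFT.W

variable (q : ℕ) [Fact q.Prime]

/-- The absolute Galois group of `ℚ`. -/
abbrev GQ : Type := AlgebraicClosure ℚ ≃ₐ[ℚ] AlgebraicClosure ℚ

/-- Every embedding `ℚ̄ → PadicAlgCl q` is `padicEmbedding q ∘ g`. -/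
theorem exists_eq_padicEmbedding_comp (ψ : AlgebraicClosure ℚ →+* PadicAlgCl q) :
    ∃ g : GQ, ∀ x, ψ x = padicEmbedding q (g x) := by
  let ψ' : AlgebraicClosure ℚ →ₐ[ℚ] PadicAlgCl q := ψ.toRatAlgHom
  let : Algebra (AlgebraicClosure ℚ) (PadicAlgCl q) := (padicEmbedding q).toRingHom.toAlgebra
  have : IsScalarTower ℚ (AlgebraicClosure ℚ) (PadicAlgCl q) :=
    IsScalarTower.of_algebraMap_eq' (Subsingleton.elim _ _)
  let g : AlgebraicClosure ℚ →ₐ[ℚ] AlgebraicClosure ℚ := ψ'.restrictNormal (AlgebraicClosure ℚ)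
  have hg : Function.Bijective g := Algebra.IsAlgebraic.algHom_bijective g
  refine ⟨AlgEquiv.ofBijective g hg, fun x => ?_⟩
  exact (AlgHom.restrictNormal_commutes ψ' (AlgebraicClosure ℚ) x).symm

/-- Every embedding of a subfield of `ℚ̄` is induced by `padicEmbedding q ∘ g`. -/
theorem exists_global (L : IntermediateField ℚ (AlgebraicClosure ℚ)) (φ : L →+* PadicAlgCl q) :
    ∃ g : GQ, ∀ x : L, φ x = padicEmbedding q (g x) := by
  let : Algebra L (PadicAlgCl q) := φ.toAlgebra
  have : Algebra.IsAlgebraic L (AlgebraicClosure ℚ) := by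
    exact Algebra.IsAlgebraic.tower_top (K := ℚ) L
  let ψ : AlgebraicClosure ℚ →ₐ[L] PadicAlgCl q := IsAlgClosed.lift
  obtain ⟨g, hg⟩ := exists_eq_padicEmbedding_comp q (ψ : AlgebraicClosure ℚ →+* PadicAlgCl q)
  refine ⟨g, fun x => ?_⟩
  rw [← hg]
  exact (ψ.commutes x).symm

/-- The embedding `padicEmbedding q ∘ g` restricted to `L`. -/
noncomputable def emb (L : IntermediateField ℚ (AlgebraicClosure ℚ)) (g : GQ) :
    L →+* PadicAlgCl q :=
  (padicEmbedding q : AlgebraicClosure ℚ →+* PadicAlgCl q).comp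
    ((g : AlgebraicClosure ℚ →+* AlgebraicClosure ℚ).comp (algebraMap L (AlgebraicClosure ℚ)))

@[simp] theorem emb_apply (L : IntermediateField ℚ (AlgebraicClosure ℚ)) (g : GQ) (x : L) :
    emb q L g x = padicEmbedding q (g x) := rfl

theorem exists_emb (L : IntermediateField ℚ (AlgebraicClosure ℚ)) (φ : L →+* PadicAlgCl q) :
    ∃ g : GQ, φ = emb q L g := by
  obtain ⟨g, hg⟩ := exists_global q L φ
  exact ⟨g, RingHom.ext hg⟩

theorem emb_eq_iff (L : IntermediateField ℚ (AlgebraicClosure ℚ)) (g g' : GQ) :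
    emb q L g = emb q L g' ↔ g⁻¹ * g' ∈ L.fixingSubgroup := by
  rw [IntermediateField.mem_fixingSubgroup_iff]
  constructor
  · intro h x hx
    have := DFunLike.congr_fun h ⟨x, hx⟩
    simp only [emb_apply] at this
    have h2 := (padicEmbedding q).injective this
    change g⁻¹ (g' x) = x
    rw [← h2]
    exact g.symm_apply_apply x
  · intro h
    ext x
    have := h x x.2
    simp only [emb_apply]
    congr 1
    change g⁻¹ (g' x) = x at this
    have h2 := congrArg g this
    rw [← h2]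
    exact g.apply_symm_apply _

theorem emb_loc_mul (L : IntermediateField ℚ (AlgebraicClosure ℚ)) (g : GQ)
    (τ : PadicAlgCl q ≃ₐ[ℚ_[q]] PadicAlgCl q) (x : L) :
    emb q L (localGaloisToGlobal q τ * g) x = τ (emb q L g x) :=
  padicEmbedding_localGaloisToGlobal q τ (g x)

section numfield

variable (L : IntermediateField ℚ (AlgebraicClosure ℚ)) [FiniteDimensional ℚ L]

instance instNumberFieldL : NumberField L where
  to_charZero := inferInstance
  to_finiteDimensional := by
    convert! (inferInstance : FiniteDimensional ℚ L)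

/-- Same prime above `q` iff same double coset. -/
theorem pl_emb_eq_iff (g g' : GQ) :
    pl (emb q L g) = pl (emb q L g') ↔
      ∃ τ : PadicAlgCl q ≃ₐ[ℚ_[q]] PadicAlgCl q, ∃ u ∈ L.fixingSubgroup,
        g' = localGaloisToGlobal q τ * g * u := by
  constructor
  · intro h
    obtain ⟨τ, hτ⟩ := exists_conj_of_norm_eq _ _ (norm_eq_of_pl_eq h)
    have h1 : emb q L (localGaloisToGlobal q τ * g) = emb q L g' := by
      ext x
      rw [emb_loc_mul, hτ]
    rw [emb_eq_iff] at h1
    exact ⟨τ, _, h1, by group⟩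
  · rintro ⟨τ, u, hu, rfl⟩
    have h1 : emb q L (localGaloisToGlobal q τ * g) = emb q L (localGaloisToGlobal q τ * g * u) := by
      rw [emb_eq_iff]
      simpa using hu
    rw [← h1]
    apply HeightOneSpectrum.ext
    ext x
    rw [mem_pl, mem_pl]
    have h2 : emb q L (localGaloisToGlobal q τ * g) (x : L) = τ (emb q L g x) :=
      emb_loc_mul q L g τ x
    have h3 := nnnorm_padicAlgCl_algEquiv q τ (emb q L g x)
    have h4 : ‖τ (emb q L g x)‖ = ‖emb q L g x‖ := congrArg NNReal.toReal h3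
    rw [← h4, ← h2]

end numfield

section exist

variable {L : Type*} [Field L] [NumberField L]

/-- Every prime above `q` comes from an embedding in `PadicAlgCl q`. -/
theorem exists_pl_eq (v : HeightOneSpectrum (𝓞 L)) (hqv : (q : 𝓞 L) ∈ v.asIdeal) :
    ∃ φ : L →+* PadicAlgCl q, pl φ = v := by
  have hq : q.Prime := Fact.out
  let i : L →+* AlgebraicClosure ℚ := (IsAlgClosed.lift : L →ₐ[ℚ] AlgebraicClosure ℚ)
  obtain ⟨A, hA, rfl⟩ := exists_valuationSubring_place L (AlgebraicClosure ℚ) i v hq.ne_zero hqv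
  have hP : (padicPlace q).LiesOverPrime q := by
    have h := padicIntegers_liesOverPrime q
    unfold ValuationSubring.LiesOverPrime at h ⊢
    rw [ValuationSubring.mem_nonunits_iff_or] at h ⊢
    rcases h with h | h
    · exact absurd h (by exact_mod_cast hq.ne_zero)
    · right
      intro h'
      apply h
      have := h'
      rw [padicPlace, ValuationSubring.mem_comap] at this
      simpa using this
  obtain ⟨σ, hσ⟩ := exists_smul_eq (padicPlace q) A hq hP hA
  refine ⟨(padicEmbedding q : AlgebraicClosure ℚ →+* PadicAlgCl q).comp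
    (((σ⁻¹ : GQ) : AlgebraicClosure ℚ →+* AlgebraicClosure ℚ).comp i), ?_⟩
  rw [pl, place_eq_iff]
  intro x
  rw [ValuationSubring.mem_nonunits_iff_or, ValuationSubring.mem_nonunits_iff_or, hσ, mem_smul_iff]
  have e1 : σ⁻¹ • (i x)⁻¹ = (σ⁻¹ (i x))⁻¹ := map_inv₀ (σ⁻¹ : GQ) (i x)
  rw [e1]
  have e2 : (padicEmbedding q : AlgebraicClosure ℚ →+* PadicAlgCl q).comp
    (((σ⁻¹ : GQ) : AlgebraicClosure ℚ →+* AlgebraicClosure ℚ).comp i) x =
      padicEmbedding q (σ⁻¹ (i x)) := rfl
  have e4 : padicEmbedding q (σ⁻¹ (i x)) = 0 ↔ i x = 0 := by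
    rw [map_eq_zero, map_eq_zero]
  rw [e2, e4, padicPlace, ValuationSubring.mem_comap]
  have e3 : (padicEmbedding q).toRingHom (σ⁻¹ (i x))⁻¹ = (padicEmbedding q (σ⁻¹ (i x)))⁻¹ :=
    map_inv₀ (padicEmbedding q) _
  rw [e3]

end exist

section numfield

variable (L : IntermediateField ℚ (AlgebraicClosure ℚ)) [FiniteDimensional ℚ L]

theorem exists_pl_emb_eq (v : HeightOneSpectrum (𝓞 L)) (hqv : (q : 𝓞 L) ∈ v.asIdeal) :
    ∃ g : GQ, pl (emb q L g) = v := by
  obtain ⟨φ, hφ⟩ := exists_pl_eq q v hqv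
  obtain ⟨g, rfl⟩ := exists_emb q L φ
  exact ⟨g, hφ⟩

/-- The local field `ℚ_q(ι_q(g L))` inside `PadicAlgCl q`. -/
noncomputable def localField (g : GQ) : IntermediateField ℚ_[q] (PadicAlgCl q) :=
  IntermediateField.adjoin ℚ_[q] (Set.range (emb q L g))

omit [FiniteDimensional ℚ L] in
theorem mem_fixingSubgroup_localField (g : GQ) (τ : PadicAlgCl q ≃ₐ[ℚ_[q]] PadicAlgCl q) :
    τ ∈ (localField q L g).fixingSubgroup ↔ g⁻¹ * localGaloisToGlobal q τ * g ∈ L.fixingSubgroup := by
  have h1 : g⁻¹ * localGaloisToGlobal q τ * g ∈ L.fixingSubgroup ↔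
      emb q L g = emb q L (localGaloisToGlobal q τ * g) := by
    rw [emb_eq_iff, mul_assoc]
  rw [h1, IntermediateField.mem_fixingSubgroup_iff]
  constructor
  · intro h
    ext x
    rw [emb_loc_mul]
    exact (h _ (IntermediateField.subset_adjoin _ _ ⟨x, rfl⟩)).symm
  · intro h
    have hle : localField q L g ≤ IntermediateField.fixedField (Subgroup.zpowers τ) := by
      rw [localField, IntermediateField.adjoin_le_iff]
      rintro _ ⟨x, rfl⟩
      rw [SetLike.mem_coe, IntermediateField.mem_fixedField_iff]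
      intro f hf
      obtain ⟨n, rfl⟩ := Subgroup.mem_zpowers_iff.1 hf
      have hfix : τ (emb q L g x) = emb q L g x := by
        rw [← emb_loc_mul, ← h]
      have hst : τ ∈ MulAction.stabilizer (PadicAlgCl q ≃ₐ[ℚ_[q]] PadicAlgCl q) (emb q L g x) := hfix
      exact (MulAction.stabilizer (PadicAlgCl q ≃ₐ[ℚ_[q]] PadicAlgCl q) (emb q L g x)).zpow_mem hst n
    intro x hx
    have := hle hx
    rw [IntermediateField.mem_fixedField_iff] at this
    exact this τ (Subgroup.mem_zpowers τ)

end numfield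

end Fermat.Agent.CFT.W
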