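import Mathlib
import Fermat.Agent.CFT.W.Place

/-!
# Integral orders `ord v x` and comparison with valuation subrings
-/

set_option autoImplicit false

open NumberField IsDedekindDomain WithZero

namespace Fermat.Agent.CFT.W

variable {L : Type*} [Field L] [NumberField L]

/-- The order of a nonzero element at a finite prime (uniformizers have order `1`). -/
noncomputable def ord (v : HeightOneSpectrum (𝓞 L)) (x : Lˣ) : ℤ :=
  -Multiplicative.toAdd (v.valuationOfNeZero x)

theorem valuation_eq_exp (v : HeightOneSpectrum (𝓞 L)) (x : Lˣ) :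
    v.valuation L (x : L) = exp (-(ord v x)) := by
  rw [← HeightOneSpectrum.valuationOfNeZero_eq, ord, neg_neg]
  rfl

@[simp] theorem ord_one (v : HeightOneSpectrum (𝓞 L)) : ord v (1 : Lˣ) = 0 := by
  rw [ord, map_one, toAdd_one, neg_zero]

theorem ord_mul (v : HeightOneSpectrum (𝓞 L)) (x y : Lˣ) : ord v (x * y) = ord v x + ord v y := by
  rw [ord, ord, ord, map_mul, toAdd_mul, neg_add]

theorem ord_inv (v : HeightOneSpectrum (𝓞 L)) (x : Lˣ) : ord v x⁻¹ = -ord v x := by
  rw [ord, ord, map_inv, toAdd_inv]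

theorem ord_div (v : HeightOneSpectrum (𝓞 L)) (x y : Lˣ) : ord v (x / y) = ord v x - ord v y := by
  rw [div_eq_mul_inv, ord_mul, ord_inv, sub_eq_add_neg]

theorem ord_pow (v : HeightOneSpectrum (𝓞 L)) (x : Lˣ) (n : ℕ) : ord v (x ^ n) = n * ord v x := by
  rw [ord, ord, map_pow, toAdd_pow, nsmul_eq_mul, mul_neg]

theorem ord_zpow (v : HeightOneSpectrum (𝓞 L)) (x : Lˣ) (n : ℤ) : ord v (x ^ n) = n * ord v x := by
  rw [ord, ord, map_zpow, toAdd_zpow, smul_eq_mul, mul_neg]

theorem ord_prod (v : HeightOneSpectrum (𝓞 L)) {ι : Type*} (s : Finset ι) (f : ι → Lˣ) :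
    ord v (∏ i ∈ s, f i) = ∑ i ∈ s, ord v (f i) := by
  classical
  induction s using Finset.induction_on with
  | empty => simp
  | insert a s ha ih => rw [Finset.prod_insert ha, Finset.sum_insert ha, ord_mul, ih]

theorem dvd_ord_iff (v : HeightOneSpectrum (𝓞 L)) (x : Lˣ) (n : ℤ) :
    n ∣ ord v x ↔ n ∣ Multiplicative.toAdd (v.valuationOfNeZero x) := by
  rw [ord, dvd_neg]

theorem ord_le_iff (v : HeightOneSpectrum (𝓞 L)) (x y : Lˣ) :
    ord v x ≤ ord v y ↔ v.valuation L (y : L) ≤ v.valuation L (x : L) := by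
  rw [valuation_eq_exp, valuation_eq_exp, exp_le_exp, neg_le_neg_iff]

theorem ord_lt_iff (v : HeightOneSpectrum (𝓞 L)) (x y : Lˣ) :
    ord v x < ord v y ↔ v.valuation L (y : L) < v.valuation L (x : L) := by
  rw [valuation_eq_exp, valuation_eq_exp, exp_lt_exp, neg_lt_neg_iff]

theorem ord_eq_iff (v : HeightOneSpectrum (𝓞 L)) (x y : Lˣ) :
    ord v x = ord v y ↔ v.valuation L (x : L) = v.valuation L (y : L) := by
  rw [valuation_eq_exp, valuation_eq_exp, exp_inj, neg_inj]

theorem ord_eq_zero_iff (v : HeightOneSpectrum (𝓞 L)) (x : Lˣ) :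
    ord v x = 0 ↔ v.valuation L (x : L) = 1 := by
  rw [← ord_one v, ord_eq_iff, Units.val_one, map_one]

theorem ord_nonneg_iff (v : HeightOneSpectrum (𝓞 L)) (x : Lˣ) :
    0 ≤ ord v x ↔ v.valuation L (x : L) ≤ 1 := by
  rw [← ord_one v, ord_le_iff, Units.val_one, map_one]

theorem ord_pos_iff (v : HeightOneSpectrum (𝓞 L)) (x : Lˣ) :
    0 < ord v x ↔ v.valuation L (x : L) < 1 := by
  rw [← ord_one v, ord_lt_iff, Units.val_one, map_one]

theorem ord_eq_of_valuation_eq_exp (v : HeightOneSpectrum (𝓞 L)) (x : Lˣ) (n : ℤ)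
    (h : v.valuation L (x : L) = exp (-n)) : ord v x = n := by
  rw [valuation_eq_exp, exp_inj, neg_inj] at h
  exact h

theorem exists_ord_eq_one (v : HeightOneSpectrum (𝓞 L)) : ∃ π : Lˣ, ord v π = 1 := by
  obtain ⟨π, hπ⟩ := v.valuation_exists_uniformizer L
  have h0 : π ≠ 0 := by
    rintro rfl
    rw [map_zero] at hπ
    exact exp_ne_zero hπ.symm
  exact ⟨Units.mk0 π h0, ord_eq_of_valuation_eq_exp v _ 1 hπ⟩

section A

variable {E : Type*} [Field E] (A : ValuationSubring E) (i : L →+* E) {q : ℕ} (hq : q ≠ 0)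
  (hA : A.LiesOverPrime q)

theorem val_le_iff_ord (x y : Lˣ) :
    A.valuation (i x) ≤ A.valuation (i y) ↔ ord (place A i hq hA) y ≤ ord (place A i hq hA) x := by
  rw [ord_le_iff, valuation_le_iff]

theorem val_eq_iff_ord (x y : Lˣ) :
    A.valuation (i x) = A.valuation (i y) ↔ ord (place A i hq hA) x = ord (place A i hq hA) y := by
  rw [le_antisymm_iff, val_le_iff_ord A i hq hA, val_le_iff_ord A i hq hA, le_antisymm_iff,
    and_comm]

theorem val_eq_one_iff_ord (x : Lˣ) :
    A.valuation (i x) = 1 ↔ ord (place A i hq hA) x = 0 := by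
  rw [ord_eq_zero_iff, valuation_eq_one_iff]

theorem mem_iff_ord (x : Lˣ) :
    i x ∈ A ↔ 0 ≤ ord (place A i hq hA) x := by
  rw [ord_nonneg_iff, valuation_le_one_iff]

end A

end Fermat.Agent.CFT.W
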