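import Mathlib
import Fermat.Agent.CFT.W.Ord
import Fermat.Agent.CFT.W.Global
import Fermat.Agent.Lib.Cyclotomic
import Fermat.Agent.FlatOrd.InertiaLift

/-!
# Ramification in Kummer extensions, in terms of inertia groups of valuation subrings of `ℚ̄`
-/

set_option autoImplicit false

open NumberField IsDedekindDomain Polynomial Pointwise
open Fermat.Agent.FrobExists

namespace Fermat.Agent.CFT.W

/-- An algebraic closure of `ℚ`. -/
local notation "Qb" => AlgebraicClosure ℚ

variable (L : IntermediateField ℚ Qb) [FiniteDimensional ℚ L]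

/-- The place of `L` below `A`. -/
noncomputable abbrev placeL (A : ValuationSubring Qb) {q : ℕ} (hq : q ≠ 0)
    (hA : A.LiesOverPrime q) : HeightOneSpectrum (𝓞 L) :=
  place A (algebraMap L Qb) hq hA

theorem val_pow_eq_one {A : ValuationSubring Qb} {x : Qb} {n : ℕ} (hn : n ≠ 0)
    (h : A.valuation (x ^ n) = 1) : A.valuation x = 1 := by
  rw [map_pow] at h
  have hx : A.valuation x ≠ 0 := by
    intro h0
    rw [h0, zero_pow hn] at h
    exact zero_ne_one h
  rcases lt_trichotomy (A.valuation x) 1 with h1 | h1 | h1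
  · exact absurd h (pow_lt_one₀ zero_le h1 hn).ne
  · exact h1
  · exact absurd h (one_lt_pow₀ h1 hn).ne'

/-- If `n ∣ ord_v a` for the place `v` below `A`, `A ∤ n`, then inertia at `A` fixing `L` fixes the
`n`-th roots of `a`. -/
theorem apply_eq_of_dvd_ord {A : ValuationSubring Qb} {q : ℕ} (hq : q.Prime)
    (hA : A.LiesOverPrime q) {n : ℕ} [NeZero n] (hqn : ¬ q ∣ n) (a : Lˣ)
    (ha : (n : ℤ) ∣ ord (placeL L A hq.ne_zero hA) a) {b : Qb} (hb : b ^ n = ((a : L) : Qb))
    {σ : GQ} (hσ : σ ∈ A.inertiaSubgroupIn ℚ) (hσL : ∀ x ∈ L, σ x = x) : σ b = b := by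
  obtain ⟨k, hk⟩ := ha
  obtain ⟨π, hπ⟩ := exists_ord_eq_one (placeL L A hq.ne_zero hA)
  set u : Lˣ := a * (π ^ ((n : ℤ) * k))⁻¹ with hu
  have hu1 : ord (placeL L A hq.ne_zero hA) u = 0 := by
    rw [hu, ord_mul, ord_inv, ord_zpow, hπ, hk]; ring
  have hval : A.valuation (((u : L) : Qb)) = 1 :=
    (val_eq_one_iff_ord A (algebraMap L Qb) hq.ne_zero hA u).2 hu1
  set c : Qb := b * (((π ^ k : Lˣ) : L) : Qb)⁻¹ with hc
  have hcn : c ^ n = ((u : L) : Qb) := by
    rw [hc, mul_pow, hb, inv_pow, hu]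
    push_cast
    rw [mul_comm (n : ℤ) k, zpow_mul, zpow_natCast]
    rfl
  have hcval : A.valuation c = 1 := val_pow_eq_one (NeZero.ne n) (by rw [hcn, hval])
  have hc0 : c ≠ 0 := by
    intro h
    rw [h, map_zero] at hcval
    exact zero_ne_one hcval
  have hcA : c ∈ A := (A.valuation_le_one_iff c).1 hcval.le
  have h1 : σ c - c ∈ A.nonunits := Fermat.Agent.Cyclotomic.sub_mem_nonunits_of_mem_inertia A hσ hcA
  have hσcn : (σ c * c⁻¹) ^ n = 1 := by
    rw [mul_pow, ← map_pow, hcn, hσL _ (u : L).2, ← hcn, inv_pow, mul_inv_cancel₀ (pow_ne_zero n hc0)]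
  have h2 : σ c * c⁻¹ - 1 ∈ A.nonunits := by
    have e : σ c * c⁻¹ - 1 = (σ c - c) * c⁻¹ := by
      rw [sub_mul, mul_inv_cancel₀ hc0]
    rw [e, ValuationSubring.mem_nonunits_iff, map_mul, map_inv₀, hcval, inv_one, mul_one]
    exact (ValuationSubring.mem_nonunits_iff _).1 h1
  have h3 : σ c * c⁻¹ = 1 := Fermat.Agent.Cyclotomic.eq_of_residue_eq A
    (Fermat.Agent.Cyclotomic.natCast_notMem_nonunits hq hA hqn) hσcn (one_pow n) h2
  have h4 : σ c = c := by
    rw [mul_inv_eq_one₀ hc0] at h3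
    exact h3
  have hπ0 : (((π ^ k : Lˣ) : L) : Qb) ≠ 0 := by
    have := (π ^ k).ne_zero
    exact_mod_cast this
  have h5 : b = c * (((π ^ k : Lˣ) : L) : Qb) := by
    rw [hc, mul_assoc, inv_mul_cancel₀ hπ0, mul_one]
  rw [h5, map_mul, h4, hσL _ ((π ^ k : Lˣ) : L).2]

end Fermat.Agent.CFT.W

namespace Fermat.Agent.CFT.W

/-- An algebraic closure of `ℚ`. -/
local notation "Qb" => AlgebraicClosure ℚ

variable (L : IntermediateField ℚ Qb) [FiniteDimensional ℚ L]

section moving

variable {L} {A : ValuationSubring Qb} {q : ℕ} (hq : q.Prime) (hA : A.LiesOverPrime q)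
  {p : ℕ} (hp : p.Prime) {a : Lˣ} (ha : ¬ (p : ℤ) ∣ ord (placeL L A hq.ne_zero hA) a)
  {b : Qb} (hb : b ^ p = ((a : L) : Qb))

include ha hb hp in
theorem term_val_ne {i j : ℕ} (hi : i < p) (hj : j < p) (hij : i ≠ j) (c d : Lˣ) :
    A.valuation (((c : L) : Qb) * b ^ i) ≠ A.valuation (((d : L) : Qb) * b ^ j) := by
  intro h
  have h1 : A.valuation (algebraMap L Qb ((c ^ p * a ^ i : Lˣ) : L)) =
      A.valuation (algebraMap L Qb ((d ^ p * a ^ j : Lˣ) : L)) := by
    have e : ∀ (c : Lˣ) (i : ℕ), algebraMap L Qb ((c ^ p * a ^ i : Lˣ) : L) =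
        (((c : L) : Qb) * b ^ i) ^ p := by
      intro c i
      rw [mul_pow, ← pow_mul, mul_comm i p, pow_mul, hb]
      push_cast
      rfl
    rw [e, e, map_pow, h, ← map_pow]
  rw [val_eq_iff_ord A (algebraMap L Qb) hq.ne_zero hA, ord_mul, ord_mul, ord_pow, ord_pow,
    ord_pow, ord_pow] at h1
  have h2 : (p : ℤ) ∣ ((i : ℤ) - j) * ord (placeL L A hq.ne_zero hA) a :=
    ⟨ord (placeL L A hq.ne_zero hA) d - ord (placeL L A hq.ne_zero hA) c, by linarith⟩
  rcases (Nat.prime_iff_prime_int.1 hp).dvd_or_dvd h2 with h3 | h3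
  · have h4 := Int.eq_zero_of_abs_lt_dvd h3 (by rw [abs_lt]; constructor <;> omega)
    omega
  · exact ha h3

include ha hb hp in
theorem terms_mem {c : ℕ → L} (h : ∑ i ∈ Finset.range p, ((c i : L) : Qb) * b ^ i ∈ A) {i : ℕ}
    (hi : i < p) : ((c i : L) : Qb) * b ^ i ∈ A := by
  set t : ℕ → Qb := fun i => ((c i : L) : Qb) * b ^ i with ht
  have hb0 : b ≠ 0 := by
    rintro rfl
    rw [zero_pow hp.ne_zero] at hb
    have := a.ne_zero
    exact this (Subtype.ext hb.symm)
  obtain ⟨j, hj, hmax⟩ := Finset.exists_max_image (Finset.range p) (fun i => A.valuation (t i))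
    ⟨0, Finset.mem_range.2 hp.pos⟩
  rw [Finset.mem_range] at hj
  have hlt : ∀ k ∈ Finset.range p \ {j}, t j ≠ 0 → A.valuation (t k) < A.valuation (t j) := by
    intro k hk htj
    rw [Finset.mem_sdiff, Finset.mem_range, Finset.mem_singleton] at hk
    refine lt_of_le_of_ne (hmax k (Finset.mem_range.2 hk.1)) ?_
    rcases eq_or_ne (c k) 0 with hck | hck
    · have : t k = 0 := by simp [ht, hck]
      rw [this, map_zero]
      exact ((Valuation.ne_zero_iff _).2 htj).symm
    · have hcj : c j ≠ 0 := by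
        intro h0
        apply htj
        simp [ht, h0]
      exact term_val_ne hq hA hp ha hb hk.1 hj hk.2 (Units.mk0 _ hck) (Units.mk0 _ hcj)
  have hle : A.valuation (t j) ≤ 1 := by
    rcases eq_or_ne (t j) 0 with h0 | h0
    · rw [h0, map_zero]; exact zero_le_one
    · have h1 := Valuation.map_sum_eq_of_lt A.valuation (Finset.mem_range.2 hj)
        (fun k hk => hlt k hk h0)
      rw [← h1, ValuationSubring.valuation_le_one_iff]
      exact h
  exact (A.valuation_le_one_iff _).1 ((hmax i (Finset.mem_range.2 hi)).trans hle)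

include ha hb hp in
/-- If `p ∤ ord_v a`, some element of inertia fixing `L` sends `b = a^{1/p}` to `ζ b`. -/
theorem exists_inertia_moving {ζ : Qb} (hζ : IsPrimitiveRoot ζ p) :
    ∃ σ ∈ A.inertiaSubgroupIn ℚ, (∀ x ∈ L, σ x = x) ∧ σ b = ζ * b := by
  have hb0 : b ≠ 0 := by
    rintro rfl
    rw [zero_pow hp.ne_zero] at hb
    have := a.ne_zero
    exact this (Subtype.ext hb.symm)
  -- irreducibility
  have hirr : Irreducible (X ^ p - C (a : L)) := by
    refine X_pow_sub_C_irreducible_of_prime hp fun c hc => ha ?_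
    have hc0 : c ≠ 0 := by
      rintro rfl
      rw [zero_pow hp.ne_zero] at hc
      exact a.ne_zero hc.symm
    have : a = Units.mk0 c hc0 ^ p := Units.ext hc.symm
    rw [this, ord_pow]
    exact Dvd.intro _ rfl
  have hmonic : (X ^ p - C (a : L)).Monic := monic_X_pow_sub_C _ hp.ne_zero
  have hm1 : X ^ p - C (a : L) = minpoly L b := by
    refine minpoly.eq_of_irreducible_of_monic hirr ?_ hmonic
    rw [map_sub, map_pow, aeval_X, aeval_C, hb]
    exact sub_self _
  have hm2 : X ^ p - C (a : L) = minpoly L (ζ * b) := by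
    refine minpoly.eq_of_irreducible_of_monic hirr ?_ hmonic
    rw [map_sub, map_pow, aeval_X, aeval_C, mul_pow, hζ.pow_eq_one, one_mul, hb]
    exact sub_self _
  have : Normal ℚ Qb := inferInstance
  have : Normal L Qb := Normal.tower_top_of_normal ℚ L Qb
  obtain ⟨g₀, hg₀⟩ := IsConjRoot.exists_algEquiv (K := L) (L := Qb) (x := ζ * b) (y := b)
    (show minpoly L (ζ * b) = minpoly L b by rw [← hm1, ← hm2])
  let g : GQ := g₀.restrictScalars ℚ
  have hgb : g b = ζ * b := hg₀
  have hgL : ∀ x ∈ L, g x = x := fun x hx => g₀.commutes ⟨x, hx⟩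
  -- the closed subgroup fixing `L(b)`
  let M : IntermediateField ℚ Qb := (IntermediateField.adjoin L {b}).restrictScalars ℚ
  have hdecomp : ∀ z ∈ M, ∃ c : ℕ → L, z = ∑ i ∈ Finset.range p, ((c i : L) : Qb) * b ^ i := by
    intro z hz
    have hz' : z ∈ IntermediateField.adjoin L {b} := hz
    have halg : IsAlgebraic L b := (Algebra.IsAlgebraic.tower_top (K := ℚ) L).isAlgebraic b
    have hz'' : z ∈ (IntermediateField.adjoin L {b}).toSubalgebra := hz'
    rw [IntermediateField.adjoin_simple_toSubalgebra_of_isAlgebraic halg,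
      Algebra.adjoin_singleton_eq_range_aeval] at hz''
    obtain ⟨f, rfl⟩ := hz''
    refine ⟨fun i => (f %ₘ (X ^ p - C (a : L))).coeff i, ?_⟩
    have h1 : aeval b f = aeval b (f %ₘ (X ^ p - C (a : L))) := by
      rw [aeval_modByMonic_eq_self_of_root]
      rw [map_sub, map_pow, aeval_X, aeval_C, hb]
      exact sub_self _
    have h2 : (f %ₘ (X ^ p - C (a : L))).natDegree < p := by
      have := natDegree_modByMonic_lt f hmonic (fun h => by
        have := congrArg natDegree h
        rw [natDegree_X_pow_sub_C, natDegree_one] at this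
        exact hp.ne_zero this)
      rwa [natDegree_X_pow_sub_C] at this
    change aeval b f = _
    rw [h1, aeval_eq_sum_range' h2]
    refine Finset.sum_congr rfl fun i _ => ?_
    rw [Algebra.smul_def]
    rfl
  obtain ⟨σ, hσ, hσM⟩ := Fermat.Agent.FlatOrd.InertiaLift.exists_mul_mem_inertia_of_intermediateField
    M A hq hA g (fun x hx => by
      obtain ⟨c, hc⟩ := hdecomp x hx
      rw [mem_center]
      have hxA : (x : Qb) ∈ A := mem_of_isIntegral A x.2
      rw [hc] at hxA
      have hgx : ((g • x - x : integralClosure ℤ Qb) : Qb) = g (x : Qb) - (x : Qb) := rfl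
      rw [hgx, hc, map_sum, ← Finset.sum_sub_distrib, ValuationSubring.mem_nonunits_iff]
      refine Valuation.map_sum_lt _ one_ne_zero fun i hi => ?_
      rw [Finset.mem_range] at hi
      have e : g (((c i : L) : Qb) * b ^ i) - ((c i : L) : Qb) * b ^ i =
          (ζ ^ i - 1) * (((c i : L) : Qb) * b ^ i) := by
        rw [map_mul, map_pow, hgL _ (c i).2, hgb]
        ring
      rw [e, map_mul]
      have hmem := terms_mem hq hA hp ha hb hxA hi
      rcases Nat.eq_zero_or_pos i with rfl | hi0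
      · rw [pow_zero, sub_self, map_zero, zero_mul]
        exact zero_lt_one
      · have h1 : A.valuation (((c i : L) : Qb) * b ^ i) < 1 := by
          refine lt_of_le_of_ne ((A.valuation_le_one_iff _).2 hmem) ?_
          rcases eq_or_ne (c i) 0 with h0 | h0
          · rw [h0]
            simp
          · have := term_val_ne hq hA hp ha hb hi hp.pos hi0.ne' (Units.mk0 _ h0) (1 : Lˣ)
            simpa using this
        have h2 : A.valuation (ζ ^ i - 1) ≤ 1 := by
          rw [ValuationSubring.valuation_le_one_iff]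
          refine A.sub_mem (pow_mem ?_ i) A.one_mem
          exact Fermat.Agent.Cyclotomic.mem_of_pow_eq_one A hζ.pow_eq_one hp.ne_zero
        calc _ ≤ 1 * A.valuation (((c i : L) : Qb) * b ^ i) := by gcongr
          _ < 1 := by rwa [one_mul])
  have hLM : ∀ x ∈ L, x ∈ M := fun x hx =>
    (IntermediateField.adjoin L {b}).algebraMap_mem ⟨x, hx⟩
  refine ⟨σ, hσ, fun x hx => ?_, ?_⟩
  · rw [hσM x (hLM x hx), hgL x hx]
  · rw [hσM b (IntermediateField.mem_adjoin_simple_self L b), hgb]

end moving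

end Fermat.Agent.CFT.W
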