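import Mathlib
import Fermat.Prelude.Def_GroupCohomology_ContinuousUnramified
import Fermat.Agent.CFT.W.Ram
import Fermat.Agent.TWP.Place

/-!
# The maximal extension of `ℚ` unramified outside `S`
-/

set_option autoImplicit false

open NumberField IsDedekindDomain Polynomial Pointwise
open Fermat.Agent.FrobExists

namespace Fermat.Agent.CFT.W

/-- An algebraic closure of `ℚ`. -/
local notation "Qb" => AlgebraicClosure ℚ

/-- The maximal extension of `ℚ` unramified outside `S`. -/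
def QS (S : Finset Nat.Primes) : IntermediateField ℚ Qb where
  carrier := {x | ∀ q : Nat.Primes, q ∉ S → ∀ A : ValuationSubring Qb, A.LiesOverPrime (q : ℕ) →
    ∀ σ ∈ A.inertiaSubgroupIn ℚ, σ x = x}
  mul_mem' := fun {a b} ha hb q hq A hA σ hσ => by
    rw [map_mul, ha q hq A hA σ hσ, hb q hq A hA σ hσ]
  add_mem' := fun {a b} ha hb q hq A hA σ hσ => by
    rw [map_add, ha q hq A hA σ hσ, hb q hq A hA σ hσ]
  algebraMap_mem' := fun r q hq A hA σ hσ => σ.commutes r
  inv_mem' := fun a ha q hq A hA σ hσ => by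
    rw [map_inv₀, ha q hq A hA σ hσ]

variable {S : Finset Nat.Primes}

theorem mem_QS {x : Qb} : x ∈ QS S ↔ ∀ q : Nat.Primes, q ∉ S → ∀ A : ValuationSubring Qb,
    A.LiesOverPrime (q : ℕ) → ∀ σ ∈ A.inertiaSubgroupIn ℚ, σ x = x := Iff.rfl

theorem le_QS_iff {F : IntermediateField ℚ Qb} : F ≤ QS S ↔ ∀ q : Nat.Primes, q ∉ S →
    ∀ A : ValuationSubring Qb, A.LiesOverPrime (q : ℕ) →
      A.inertiaSubgroupIn ℚ ≤ F.fixingSubgroup := by
  constructor
  · intro h q hq A hA σ hσ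
    rw [IntermediateField.mem_fixingSubgroup_iff]
    exact fun x hx => h hx q hq A hA σ hσ
  · intro h x hx q hq A hA σ hσ
    exact (IntermediateField.mem_fixingSubgroup_iff F σ).1 (h q hq A hA hσ) x hx

theorem isUnramifiedOutside_iff {F : IntermediateField ℚ Qb} :
    F.IsUnramifiedOutside S ↔ FiniteDimensional ℚ F ∧ F ≤ QS S := by
  rw [le_QS_iff]
  rfl

theorem smul_mem_QS (g : GQ) {x : Qb} (hx : x ∈ QS S) : g x ∈ QS S := by
  intro q hq A hA σ hσ
  have h1 := Fermat.Agent.TWP.Place.mem_inertia_conj g⁻¹ hσ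
  have h2 := hx q hq (g⁻¹ • A) (smul_liesOverPrime g⁻¹ A hA) _ h1
  rw [inv_inv] at h2
  change g⁻¹ (σ (g x)) = x at h2
  have h3 := congrArg g h2
  rwa [show g (g⁻¹ (σ (g x))) = σ (g x) from g.apply_symm_apply _] at h3

theorem smul_mem_QS_iff (g : GQ) {x : Qb} : g x ∈ QS S ↔ x ∈ QS S := by
  refine ⟨fun h => ?_, smul_mem_QS g⟩
  have := smul_mem_QS g⁻¹ h
  rwa [show g⁻¹ (g x) = x from g.symm_apply_apply _] at this

theorem adjoin_le_QS_iff {s : Set Qb} : IntermediateField.adjoin ℚ s ≤ QS S ↔ s ⊆ QS S :=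
  IntermediateField.adjoin_le_iff

theorem normalClosure_le_QS {F : IntermediateField ℚ Qb} (hF : F ≤ QS S) :
    IntermediateField.normalClosure ℚ F Qb ≤ QS S := by
  rw [normalClosure_le_iff]
  intro f y hy
  obtain ⟨x, rfl⟩ := hy
  obtain ⟨g, hg⟩ : ∃ g : GQ, ∀ x : F, f x = g x :=
    ⟨AlgEquiv.ofBijective (f.liftNormal Qb) (Algebra.IsAlgebraic.algHom_bijective _),
      fun x => (f.liftNormal_commutes Qb x).symm⟩
  change f x ∈ QS S
  rw [hg]
  exact smul_mem_QS g (hF x.2)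

theorem isUnramifiedOutside_normalClosure {F : IntermediateField ℚ Qb}
    (hF : F.IsUnramifiedOutside S) :
    (IntermediateField.normalClosure ℚ F Qb).IsUnramifiedOutside S := by
  rw [isUnramifiedOutside_iff] at hF ⊢
  have := hF.1
  exact ⟨normalClosure.is_finiteDimensional ℚ F Qb, normalClosure_le_QS hF.2⟩

theorem isUnramifiedOutside_adjoin_simple {x : Qb} (hx : x ∈ QS S) :
    (IntermediateField.adjoin ℚ {x}).IsUnramifiedOutside S := by
  rw [isUnramifiedOutside_iff]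
  refine ⟨IntermediateField.adjoin.finiteDimensional
    (Algebra.IsIntegral.isIntegral (R := ℚ) x), ?_⟩
  rw [adjoin_le_QS_iff, Set.singleton_subset_iff]
  exact hx

theorem mem_QS_iff_exists {x : Qb} :
    x ∈ QS S ↔ ∃ F : IntermediateField ℚ Qb, F.IsUnramifiedOutside S ∧ x ∈ F :=
  ⟨fun h => ⟨_, isUnramifiedOutside_adjoin_simple h, IntermediateField.mem_adjoin_simple_self ℚ x⟩,
    fun ⟨_, hF, hx⟩ => (isUnramifiedOutside_iff.1 hF).2 hx⟩

/-- Every element of `ℚ_S` lies in a finite Galois extension of `ℚ` unramified outside `S`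
containing a given one. -/
theorem exists_normal_mem {F₀ : IntermediateField ℚ Qb} (hF₀ : F₀.IsUnramifiedOutside S) {x : Qb}
    (hx : x ∈ QS S) : ∃ F : IntermediateField ℚ Qb, F.IsUnramifiedOutside S ∧ Normal ℚ F ∧
      F₀ ≤ F ∧ x ∈ F := by
  have h := hF₀.sup (isUnramifiedOutside_adjoin_simple hx)
  have hfd := h.1
  refine ⟨_, isUnramifiedOutside_normalClosure h, normalClosure.normal ℚ _ Qb, ?_, ?_⟩
  · exact le_sup_left.trans (IntermediateField.le_normalClosure _)
  · exact IntermediateField.le_normalClosure _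
      ((le_sup_right : _ ≤ F₀ ⊔ IntermediateField.adjoin ℚ {x})
        (IntermediateField.mem_adjoin_simple_self ℚ x))

/-- The places of `L` above `S`. -/
def SL (S : Finset Nat.Primes) (L : Type*) [Field L] [NumberField L] :
    Set (HeightOneSpectrum (𝓞 L)) :=
  {v | ∃ q ∈ S, (((q : Nat.Primes) : ℕ) : 𝓞 L) ∈ v.asIdeal}

theorem exists_prime_mem {L : Type*} [Field L] [NumberField L] (v : HeightOneSpectrum (𝓞 L)) :
    ∃ q : Nat.Primes, ((q : ℕ) : 𝓞 L) ∈ v.asIdeal := by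
  have hne : (v.asIdeal.under ℤ) ≠ ⊥ := Ideal.IsIntegral.comap_ne_bot _ v.ne_bot
  have hpr : (v.asIdeal.under ℤ).IsPrime := Ideal.IsPrime.comap _
  obtain ⟨n, hn⟩ := (IsPrincipalIdealRing.principal (v.asIdeal.under ℤ)).principal
  have hn' : v.asIdeal.under ℤ = Ideal.span {n} := hn
  rw [hn'] at hpr hne
  have hn0 : n ≠ 0 := by
    rintro rfl
    exact hne (by simp)
  have hprime : Prime n := (Ideal.span_singleton_prime hn0).1 hpr
  refine ⟨⟨n.natAbs, Int.prime_iff_natAbs_prime.1 hprime⟩, ?_⟩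
  have h1 : ((n.natAbs : ℕ) : ℤ) ∈ v.asIdeal.under ℤ := by
    rw [hn', Ideal.mem_span_singleton]
    exact Int.dvd_natAbs.2 dvd_rfl
  have h2 : algebraMap ℤ (𝓞 L) ((n.natAbs : ℕ) : ℤ) ∈ v.asIdeal := h1
  simpa using h2

theorem prime_unique {L : Type*} [Field L] [NumberField L] {v : HeightOneSpectrum (𝓞 L)}
    {q q' : ℕ} (hq : q.Prime) (hq' : q'.Prime) (h : (q : 𝓞 L) ∈ v.asIdeal)
    (h' : (q' : 𝓞 L) ∈ v.asIdeal) : q = q' := by
  by_contra hne
  have hcop : Nat.Coprime q q' := (Nat.coprime_primes hq hq').2 hne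
  have h1 : IsCoprime (q : ℤ) (q' : ℤ) := Nat.isCoprime_iff_coprime.2 hcop
  obtain ⟨a, b, hab⟩ := h1
  have h2 : (1 : 𝓞 L) ∈ v.asIdeal := by
    have := congrArg (Int.cast : ℤ → 𝓞 L) hab
    push_cast at this
    rw [← this]
    exact v.asIdeal.add_mem (v.asIdeal.mul_mem_left _ h) (v.asIdeal.mul_mem_left _ h')
  exact v.isPrime.ne_top ((Ideal.eq_top_iff_one _).2 h2)

theorem natCast_mem_place {L : Type*} [Field L] [NumberField L] {E : Type*} [Field E]
    {A : ValuationSubring E} (i : L →+* E) {q : ℕ} (hq : q ≠ 0) (hA : A.LiesOverPrime q) :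
    (q : 𝓞 L) ∈ (place A i hq hA).asIdeal := natCast_mem_centerIdeal i hA

theorem notMem_SL_iff {L : Type*} [Field L] [NumberField L] {v : HeightOneSpectrum (𝓞 L)}
    {q : Nat.Primes} (h : ((q : ℕ) : 𝓞 L) ∈ v.asIdeal) : v ∉ SL S L ↔ q ∉ S := by
  rw [not_iff_not]
  constructor
  · rintro ⟨q', hq', h'⟩
    have : q = q' := Subtype.ext (prime_unique q.2 q'.2 h h')
    rwa [this]
  · intro hq
    exact ⟨q, hq, h⟩

theorem place_notMem_SL {L : Type*} [Field L] [NumberField L] {E : Type*} [Field E]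
    {A : ValuationSubring E} (i : L →+* E) {q : Nat.Primes} (hq : q ∉ S)
    (hA : A.LiesOverPrime (q : ℕ)) : place A i q.2.ne_zero hA ∉ SL S L :=
  (notMem_SL_iff (natCast_mem_place i q.2.ne_zero hA)).2 hq

/-- Every place outside `S` comes from a valuation subring over a prime outside `S`. -/
theorem exists_place_eq_of_notMem_SL {L : Type*} [Field L] [NumberField L] {E : Type*} [Field E]
    (i : L →+* E) {v : HeightOneSpectrum (𝓞 L)} (hv : v ∉ SL S L) :
    ∃ (q : Nat.Primes) (_ : q ∉ S) (A : ValuationSubring E) (hA : A.LiesOverPrime (q : ℕ)),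
      place A i q.2.ne_zero hA = v := by
  obtain ⟨q, hq⟩ := exists_prime_mem v
  obtain ⟨A, hA, h⟩ := exists_valuationSubring_place L E i v q.2.ne_zero hq
  exact ⟨q, (notMem_SL_iff hq).1 hv, A, hA, h⟩

theorem finite_SL (S : Finset Nat.Primes) (L : Type*) [Field L] [NumberField L] :
    (SL S L).Finite := by
  have h : SL S L = ⋃ q ∈ S, {v : HeightOneSpectrum (𝓞 L) | (((q : Nat.Primes) : ℕ) : 𝓞 L) ∈ v.asIdeal} := by
    ext v
    simp [SL]
  rw [h]
  refine S.finite_toSet.biUnion fun q _ => ?_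
  have hq0 : (((q : Nat.Primes) : ℕ) : 𝓞 L) ≠ 0 := by
    exact_mod_cast q.2.ne_zero
  have := Ideal.finite_factors (I := Ideal.span {(((q : Nat.Primes) : ℕ) : 𝓞 L)}) (by
    rwa [Ne, Ideal.zero_eq_bot, Ideal.span_singleton_eq_bot])
  refine this.subset fun v hv => ?_
  rw [Set.mem_ofPred_eq, Ideal.dvd_span_singleton]
  exact hv

end Fermat.Agent.CFT.W
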