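import Mathlib
import Fermat.Agent.CFT.W.QS

/-!
# Kummer theory over `ℚ_S`: ramification criterion, `S`-units, capitulation
-/

set_option autoImplicit false

open NumberField IsDedekindDomain Polynomial Pointwise
open Fermat.Agent.FrobExists

namespace Fermat.Agent.CFT.W

/-- An algebraic closure of `ℚ`. -/
local notation "Qb" => AlgebraicClosure ℚ

variable {S : Finset Nat.Primes}

section crit

variable {L : IntermediateField ℚ Qb} [FiniteDimensional ℚ L]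

omit [FiniteDimensional ℚ L] in
theorem inertia_fixes (hL : L ≤ QS S) {q : Nat.Primes} (hq : q ∉ S) {A : ValuationSubring Qb}
    (hA : A.LiesOverPrime (q : ℕ)) {σ : GQ} (hσ : σ ∈ A.inertiaSubgroupIn ℚ) :
    ∀ x ∈ L, σ x = x := fun _ hx => hL hx q hq A hA σ hσ

/-- (W2 ⇐) an `n`-th root of `a` lies in `ℚ_S` if `n ∣ ord_v a` for all `v ∤ S`
and `n` is an `S`-number. -/
theorem root_mem_QS (hL : L ≤ QS S) {n : ℕ} [NeZero n] (hn : ∀ q : Nat.Primes, q ∉ S → ¬ (q : ℕ) ∣ n)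
    {a : Lˣ} (ha : ∀ v : HeightOneSpectrum (𝓞 L), v ∉ SL S L → (n : ℤ) ∣ ord v a)
    {b : Qb} (hb : b ^ n = ((a : L) : Qb)) : b ∈ QS S := by
  intro q hq A hA σ hσ
  exact apply_eq_of_dvd_ord L q.2 hA (hn q hq) a (ha _ (place_notMem_SL _ hq hA)) hb hσ
    (inertia_fixes hL hq hA hσ)

/-- (W2 ⇒) -/
theorem dvd_ord_of_root_mem_QS {p : ℕ} (hp : p.Prime)
    {a : Lˣ} {b : Qb} (hb : b ^ p = ((a : L) : Qb)) (hbS : b ∈ QS S)
    {v : HeightOneSpectrum (𝓞 L)} (hv : v ∉ SL S L) : (p : ℤ) ∣ ord v a := by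
  obtain ⟨q, hq, A, hA, rfl⟩ := exists_place_eq_of_notMem_SL (algebraMap L Qb) hv
  by_contra hnd
  have : NeZero p := ⟨hp.ne_zero⟩
  obtain ⟨ζ, hζ⟩ := Fermat.Agent.Cyclotomic.exists_primitiveRoot p
  obtain ⟨σ, hσ, -, h2⟩ := exists_inertia_moving q.2 hA hp hnd hb hζ
  have hb0 : b ≠ 0 := by
    rintro rfl
    rw [zero_pow hp.ne_zero] at hb
    have := a.ne_zero
    exact this (Subtype.ext hb.symm)
  rw [hbS q hq A hA σ hσ] at h2
  have h3 : ζ = 1 := by
    have : (1 : Qb) * b = ζ * b := by rw [one_mul]; exact h2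
    exact (mul_right_cancel₀ hb0 this).symm
  exact hζ.ne_one hp.one_lt h3

/-- **(W2)** For `L ⊂ ℚ_S` and `p ∈ S`, `a^{1/p} ∈ ℚ_S` iff `p ∣ ord_v a` for all `v ∤ S`. -/
theorem root_mem_QS_iff (hL : L ≤ QS S) {p : Nat.Primes} (hp : p ∈ S)
    {a : Lˣ} {b : Qb} (hb : b ^ (p : ℕ) = ((a : L) : Qb)) :
    b ∈ QS S ↔ ∀ v : HeightOneSpectrum (𝓞 L), v ∉ SL S L → ((p : ℕ) : ℤ) ∣ ord v a := by
  have : NeZero (p : ℕ) := ⟨p.2.ne_zero⟩
  refine ⟨fun h v hv => dvd_ord_of_root_mem_QS p.2 hb h hv, fun h => root_mem_QS hL ?_ h hb⟩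
  intro q hq hqp
  have h1 := (Nat.prime_dvd_prime_iff_eq q.2 p.2).1 hqp
  exact hq (by rwa [Subtype.ext h1])

end crit

section sunits

/-- The group of `S`-units of `ℚ̄`. -/
def SU (S : Finset Nat.Primes) : Subgroup Qbˣ where
  carrier := {x | ∀ q : Nat.Primes, q ∉ S → ∀ A : ValuationSubring Qb, A.LiesOverPrime (q : ℕ) →
    A.valuation (x : Qb) = 1}
  mul_mem' := fun {a b} ha hb q hq A hA => by
    rw [Units.val_mul, map_mul, ha q hq A hA, hb q hq A hA, one_mul]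
  one_mem' := fun q hq A hA => by rw [Units.val_one, map_one]
  inv_mem' := fun {a} ha q hq A hA => by
    rw [Units.val_inv_eq_inv_val, map_inv₀, ha q hq A hA, inv_one]

theorem mem_SU {x : Qbˣ} : x ∈ SU S ↔ ∀ q : Nat.Primes, q ∉ S → ∀ A : ValuationSubring Qb,
    A.LiesOverPrime (q : ℕ) → A.valuation (x : Qb) = 1 := Iff.rfl

theorem val_eq_one_iff_mem {K : Type*} [Field K] (A : ValuationSubring K) {x : K} (hx : x ≠ 0) :
    A.valuation x = 1 ↔ x ∈ A ∧ x⁻¹ ∈ A := by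
  rw [← A.valuation_le_one_iff, ← A.valuation_le_one_iff, map_inv₀]
  have h0 : 0 < A.valuation x := zero_lt_iff.2 ((Valuation.ne_zero_iff _).2 hx)
  rw [inv_le_one₀ h0]
  exact le_antisymm_iff

theorem apply_val_eq_one_iff (A : ValuationSubring Qb) (g : GQ) (x : Qb) :
    A.valuation (g x) = 1 ↔ (g⁻¹ • A).valuation x = 1 := by
  rcases eq_or_ne x 0 with rfl | hx
  · rw [map_zero, map_zero, map_zero]
    exact iff_of_false zero_ne_one zero_ne_one
  have hx' : g x ≠ 0 := fun h => hx (by simpa using h)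
  rw [val_eq_one_iff_mem A hx', val_eq_one_iff_mem _ hx, mem_smul_iff, mem_smul_iff, inv_inv]
  have : g • x⁻¹ = (g x)⁻¹ := map_inv₀ g x
  rw [this]
  rfl

theorem smul_mem_SU (g : GQ) {x : Qbˣ} (hx : x ∈ SU S) : g • x ∈ SU S := by
  intro q hq A hA
  have : ((g • x : Qbˣ) : Qb) = g (x : Qb) := rfl
  rw [this, apply_val_eq_one_iff]
  exact hx q hq _ (smul_liesOverPrime g⁻¹ A hA)

theorem mem_SU_iff_ord {L : IntermediateField ℚ Qb} [FiniteDimensional ℚ L] {x : Qbˣ} {y : Lˣ}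
    (hxy : ((y : L) : Qb) = x) :
    x ∈ SU S ↔ ∀ v : HeightOneSpectrum (𝓞 L), v ∉ SL S L → ord v y = 0 := by
  constructor
  · intro h v hv
    obtain ⟨q, hq, A, hA, rfl⟩ := exists_place_eq_of_notMem_SL (algebraMap L Qb) hv
    rw [← val_eq_one_iff_ord]
    have := h q hq A hA
    rw [← hxy] at this
    exact this
  · intro h q hq A hA
    have h1 := h _ (place_notMem_SL (algebraMap L Qb) hq hA)
    rw [← val_eq_one_iff_ord] at h1
    rw [← hxy]
    exact h1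

/-- `S`-numbers `n`: the `S`-units of `ℚ_S` are `n`-divisible. -/
theorem exists_root_of_mem_SU {n : ℕ} [NeZero n] (hn : ∀ q : Nat.Primes, q ∉ S → ¬ (q : ℕ) ∣ n)
    {x : Qbˣ} (hx : x ∈ SU S) (hxS : (x : Qb) ∈ QS S) :
    ∃ y : Qbˣ, y ∈ SU S ∧ (y : Qb) ∈ QS S ∧ y ^ n = x := by
  obtain ⟨z, hz⟩ := IsAlgClosed.exists_pow_nat_eq (x : Qb) (Nat.pos_of_ne_zero (NeZero.ne n))
  have hz0 : z ≠ 0 := by
    rintro rfl
    rw [zero_pow (NeZero.ne n)] at hz
    exact x.ne_zero hz.symm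
  have hval : ∀ q : Nat.Primes, q ∉ S → ∀ A : ValuationSubring Qb, A.LiesOverPrime (q : ℕ) →
      A.valuation z = 1 := by
    intro q hq A hA
    refine val_pow_eq_one (NeZero.ne n) ?_
    rw [hz]
    exact hx q hq A hA
  refine ⟨Units.mk0 z hz0, hval, ?_, Units.ext hz⟩
  let L : IntermediateField ℚ Qb := IntermediateField.adjoin ℚ {(x : Qb)}
  have hL := isUnramifiedOutside_iff.1 (isUnramifiedOutside_adjoin_simple hxS)
  have : FiniteDimensional ℚ L := hL.1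
  let a : Lˣ := Units.mk0 ⟨(x : Qb), IntermediateField.mem_adjoin_simple_self ℚ _⟩
    (fun h => x.ne_zero (congrArg Subtype.val h))
  refine root_mem_QS hL.2 hn (a := a) ?_ hz
  intro v hv
  rw [(mem_SU_iff_ord (x := x) (y := a) rfl).1 hx v hv]
  exact dvd_zero _

theorem not_dvd_of_mem {p : Nat.Primes} (hp : p ∈ S) (k : ℕ) {q : Nat.Primes} (hq : q ∉ S) :
    ¬ (q : ℕ) ∣ (p : ℕ) ^ k := by
  intro h
  have h1 := (Nat.prime_dvd_prime_iff_eq q.2 p.2).1 (q.2.dvd_of_dvd_pow h)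
  exact hq (by rwa [Subtype.ext h1])

/-- **(W3)** capitulation: a divisor `D` of `L ⊂ ℚ_S` outside `S`, with `D^n` principal, `n` an
`S`-number, is generated (outside `S`) by an element of `ℚ_S`. -/
theorem exists_generator {L : IntermediateField ℚ Qb} [FiniteDimensional ℚ L] (hL : L ≤ QS S)
    {n : ℕ} [NeZero n] (hn : ∀ q : Nat.Primes, q ∉ S → ¬ (q : ℕ) ∣ n)
    (D : HeightOneSpectrum (𝓞 L) → ℤ) (a : Lˣ)
    (ha : ∀ v : HeightOneSpectrum (𝓞 L), v ∉ SL S L → ord v a = n * D v) :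
    ∃ d : Qbˣ, (d : Qb) ∈ QS S ∧ d ^ n = Units.map (algebraMap L Qb : L →* Qb) a ∧
      ∀ (q : Nat.Primes) (_ : q ∉ S) (A : ValuationSubring Qb) (hA : A.LiesOverPrime (q : ℕ))
        (x : Lˣ), ord (placeL L A q.2.ne_zero hA) x = D (placeL L A q.2.ne_zero hA) →
          A.valuation (d : Qb) = A.valuation ((x : L) : Qb) := by
  obtain ⟨z, hz⟩ := IsAlgClosed.exists_pow_nat_eq ((a : L) : Qb) (Nat.pos_of_ne_zero (NeZero.ne n))
  have hz0 : z ≠ 0 := by
    rintro rfl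
    rw [zero_pow (NeZero.ne n)] at hz
    exact a.ne_zero (Subtype.ext hz.symm)
  refine ⟨Units.mk0 z hz0, root_mem_QS hL hn (a := a) ?_ hz, Units.ext hz, ?_⟩
  · intro v hv
    exact ⟨D v, ha v hv⟩
  · intro q hq A hA x hx
    have hx0 : ((x : L) : Qb) ≠ 0 := fun h => x.ne_zero (Subtype.ext h)
    have h1 : A.valuation ((z / ((x : L) : Qb)) ^ n) = 1 := by
      have h2 : ord (placeL L A q.2.ne_zero hA) a = ord (placeL L A q.2.ne_zero hA) (x ^ n) := by
        rw [ha _ (place_notMem_SL _ hq hA), ord_pow, hx]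
      rw [← val_eq_iff_ord] at h2
      rw [div_pow, hz, map_div₀]
      have h3 : algebraMap L Qb ((x ^ n : Lˣ) : L) = ((x : L) : Qb) ^ n := by
        push_cast
        rfl
      rw [h3] at h2
      have h4 : A.valuation (((x : L) : Qb) ^ n) ≠ 0 :=
        (Valuation.ne_zero_iff _).2 (pow_ne_zero _ hx0)
      rw [div_eq_one_iff_eq h4]
      exact h2
    have h5 := val_pow_eq_one (NeZero.ne n) h1
    rw [map_div₀, div_eq_one_iff_eq ((Valuation.ne_zero_iff _).2 hx0)] at h5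
    exact h5

end sunits

end Fermat.Agent.CFT.W
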