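import Mathlib
import Fermat.Agent.CFT.W.QS

/-!
# Ramification index one above primes outside `S` in `ℚ_S`
-/

set_option autoImplicit false

open NumberField IsDedekindDomain Polynomial Pointwise WithZero
open Fermat.Agent.FrobExists

namespace Fermat.Agent.CFT.W

/-- An algebraic closure of `ℚ`. -/
local notation "Qb" => AlgebraicClosure ℚ

variable {S : Finset Nat.Primes}

section ramidx

variable {L : Type*} [Field L] [NumberField L]

/-- A nonzero natural number as a unit of a number field. -/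
noncomputable def natU (L : Type*) [Field L] [NumberField L] {q : ℕ} (hq : q ≠ 0) : Lˣ :=
  Units.mk0 (q : L) (by exact_mod_cast hq)

@[simp] theorem coe_natU {q : ℕ} (hq : q ≠ 0) : ((natU L hq : Lˣ) : L) = q := rfl

/-- the prime `q` of `ℤ`. -/
def zPrime {q : ℕ} (hq : q.Prime) : HeightOneSpectrum ℤ where
  asIdeal := Ideal.span {(q : ℤ)}
  isPrime := by
    rw [Ideal.span_singleton_prime (by exact_mod_cast hq.ne_zero)]
    exact Nat.prime_iff_prime_int.mp hq
  ne_bot := by
    rw [Ne, Ideal.span_singleton_eq_bot]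
    exact_mod_cast hq.ne_zero

omit [NumberField L] in
theorem liesOver_zPrime {q : ℕ} (hq : q.Prime) (v : HeightOneSpectrum (𝓞 L))
    (hqv : (q : 𝓞 L) ∈ v.asIdeal) : v.asIdeal.LiesOver (zPrime hq).asIdeal := by
  refine ⟨(zPrime hq).isMaximal.eq_of_le ?_ ?_⟩
  · exact Ideal.IsPrime.ne_top (Ideal.IsPrime.comap _)
  · change Ideal.span {(q : ℤ)} ≤ _
    rw [Ideal.span_singleton_le_iff_mem]
    change algebraMap ℤ (𝓞 L) q ∈ v.asIdeal
    simpa using hqv

theorem ord_natU {q : ℕ} (hq : q.Prime) (v : HeightOneSpectrum (𝓞 L))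
    (hqv : (q : 𝓞 L) ∈ v.asIdeal) :
    ord v (natU L hq.ne_zero) = v.asIdeal.ramificationIdx ℤ := by
  have := liesOver_zPrime hq v hqv
  apply ord_eq_of_valuation_eq_exp
  have h1 := HeightOneSpectrum.intValuation_liesOver (A := ℤ) (B := 𝓞 L) (zPrime hq) v (q : ℤ)
  rw [HeightOneSpectrum.intValuation_singleton (zPrime hq) (by exact_mod_cast hq.ne_zero) rfl,
    Ideal.ramificationIdx'_eq_ramificationIdx _ _ (zPrime hq).ne_bot] at h1
  have h2 : v.valuation L (algebraMap (𝓞 L) L (algebraMap ℤ (𝓞 L) (q : ℤ))) =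
      v.intValuation (algebraMap ℤ (𝓞 L) (q : ℤ)) := v.valuation_of_algebraMap _
  rw [← h1] at h2
  have h3 : algebraMap (𝓞 L) L (algebraMap ℤ (𝓞 L) (q : ℤ)) = (natU L hq.ne_zero : Lˣ) := by
    simp
  rw [h3] at h2
  rw [h2, ← exp_nsmul]
  congr 1
  simp

theorem ramificationIdx_pos (v : HeightOneSpectrum (𝓞 L)) : 0 < v.asIdeal.ramificationIdx ℤ := by
  obtain ⟨q, hq⟩ := exists_prime_mem v
  have h1 := ord_natU q.2 v hq
  have h2 : 0 < ord v (natU L q.2.ne_zero) := by
    rw [ord_pos_iff, coe_natU]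
    have : v.valuation L (algebraMap (𝓞 L) L ((q : ℕ) : 𝓞 L)) < 1 := by
      rw [HeightOneSpectrum.valuation_lt_one_iff_mem]
      exact hq
    simpa using this
  rw [h1] at h2
  exact_mod_cast h2

end ramidx

/-- Galois case: trivial inertia gives ramification index one. -/
theorem ramificationIdx_eq_one_of_galois (K : Type) [Field K] [NumberField K] [IsGalois ℚ K]
    (i : K →+* Qb) {A : ValuationSubring Qb} {q : ℕ} (hq : q.Prime) (hA : A.LiesOverPrime q)
    (hI : ∀ σ ∈ A.inertiaSubgroupIn ℚ, ∀ x : K, σ (i x) = i x) :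
    (place A i hq.ne_zero hA).asIdeal.ramificationIdx ℤ = 1 := by
  set P := (place A i hq.ne_zero hA).asIdeal with hP
  have hPprime : P.IsPrime := (place A i hq.ne_zero hA).isPrime
  -- the inertia group of `P` is trivial
  have hinert : Nat.card (P.inertia Gal(K/ℚ)) = 1 := by
    rw [Nat.card_eq_one_iff_unique]
    refine ⟨⟨fun a b => ?_⟩, ⟨1⟩⟩
    have htriv : ∀ c : P.inertia Gal(K/ℚ), (c : Gal(K/ℚ)) = 1 := by
      rintro ⟨g, hg⟩
      change g = 1
      let _ : Algebra K Qb := i.toAlgebra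
      have : IsScalarTower ℚ K Qb := IsScalarTower.of_algebraMap_eq' (Subsingleton.elim _ _)
      let G : Qb ≃ₐ[ℚ] Qb := g.liftNormal Qb
      have hG : ∀ x : K, G (i x) = i (g x) := fun x => g.liftNormal_commutes Qb x
      obtain ⟨σ, hσ, hσG⟩ :=
        Fermat.Agent.FlatOrd.InertiaLift.exists_mul_mem_inertia_of_intermediateField
        (IsScalarTower.toAlgHom ℚ K Qb).fieldRange A hq hA G (by
          rintro x ⟨y, hy⟩
          have hy' : i y = (x : Qb) := hy
          have hyint : IsIntegral ℤ y := by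
            have hx : IsIntegral ℤ (x : Qb) := x.2
            rw [← hy'] at hx
            exact (isIntegral_algHom_iff (RingHom.toIntAlgHom i) i.injective).mp hx
          obtain ⟨y', hy''⟩ : ∃ y' : 𝓞 K, (y' : K) = y := ⟨⟨y, hyint⟩, rfl⟩
          have h2 : g • y' - y' ∈ P := hg y'
          rw [hP, mem_place] at h2
          rw [mem_center]
          have h3 : i ((g • y' - y' : 𝓞 K) : K) = ((G • x - x : integralClosure ℤ Qb) : Qb) := by
            have e1 : ((g • y' - y' : 𝓞 K) : K) = g (y' : K) - (y' : K) := rfl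
            have e2 : ((G • x - x : integralClosure ℤ Qb) : Qb) = G (x : Qb) - (x : Qb) := rfl
            rw [e1, e2, map_sub, hy'', ← hy', hG]
          rw [← h3]; exact h2)
      ext x
      apply i.injective
      have h1 := hσG (i x) ⟨x, rfl⟩
      rw [hI σ hσ x, hG] at h1
      exact h1.symm
    exact Subtype.ext ((htriv a).trans (htriv b).symm)
  have hover : P.LiesOver (Ideal.span {(q : ℤ)}) :=
    liesOver_zPrime hq _ (natCast_mem_place i hq.ne_zero hA)
  have hpprime : (Ideal.span {(q : ℤ)}).IsPrime := (zPrime hq).isPrime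
  rw [Ideal.card_inertia_eq_ramificationIdxIn (Ideal.span {(q : ℤ)}) P,
    Ideal.ramificationIdxIn_eq_ramificationIdx _ P Gal(K/ℚ)] at hinert
  exact hinert

/-- the place of `L` is determined by valuations on a larger field. -/
theorem ord_natU_eq_one_of_normal {K : IntermediateField ℚ Qb} [FiniteDimensional ℚ K]
    (hN : Normal ℚ K) (hK : K ≤ QS S) {q : Nat.Primes} (hq : q ∉ S) {A : ValuationSubring Qb}
    (hA : A.LiesOverPrime (q : ℕ)) :
    ord (placeL K A q.2.ne_zero hA) (natU K q.2.ne_zero) = 1 := by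
  have hN' : @Normal ℚ K _ _ DivisionRing.toRatAlgebra := by
    convert! hN
  have hgal : @IsGalois ℚ _ K _ DivisionRing.toRatAlgebra :=
    @IsGalois.mk ℚ _ K _ DivisionRing.toRatAlgebra inferInstance hN'
  have h := ramificationIdx_eq_one_of_galois K (algebraMap K Qb) q.2 hA (fun σ hσ x =>
    hK x.2 q hq A hA σ hσ)
  rw [ord_natU q.2 _ (natCast_mem_place _ q.2.ne_zero hA)]
  exact_mod_cast h

/-- Comparison of orders in a tower, at an unramified place. -/
theorem ord_natU_eq_one {L : IntermediateField ℚ Qb} [FiniteDimensional ℚ L]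
    (hL : L ≤ QS S) {q : Nat.Primes} (hq : q ∉ S) {v : HeightOneSpectrum (𝓞 L)}
    (hqv : ((q : ℕ) : 𝓞 L) ∈ v.asIdeal) :
    ord v (natU L q.2.ne_zero) = 1 := by
  obtain ⟨A, hA, rfl⟩ := exists_valuationSubring_place L Qb (algebraMap L Qb) v q.2.ne_zero hqv
  let K : IntermediateField ℚ Qb := IntermediateField.normalClosure ℚ L Qb
  have hLK : L ≤ K := IntermediateField.le_normalClosure L
  have : FiniteDimensional ℚ K := normalClosure.is_finiteDimensional ℚ L Qb
  have h1 := ord_natU_eq_one_of_normal (normalClosure.normal ℚ L Qb) (normalClosure_le_QS hL) hq hA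
  obtain ⟨π, hπ⟩ := exists_ord_eq_one (place A (algebraMap L Qb) q.2.ne_zero hA)
  set e := ord (place A (algebraMap L Qb) q.2.ne_zero hA) (natU L q.2.ne_zero) with he
  have hepos : 0 < e := by
    rw [he, ord_natU q.2 _ hqv]
    exact_mod_cast ramificationIdx_pos _
  let j : Lˣ →* Kˣ := Units.map (IntermediateField.inclusion hLK : L →* K)
  have h2 : A.valuation (algebraMap L Qb ((π ^ e : Lˣ) : L)) =
      A.valuation (algebraMap L Qb ((natU L q.2.ne_zero : Lˣ) : L)) := by
    rw [val_eq_iff_ord A (algebraMap L Qb) q.2.ne_zero hA, ord_zpow, hπ, mul_one]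
  have h3 : A.valuation (algebraMap K Qb ((j π ^ e : Kˣ) : K)) =
      A.valuation (algebraMap K Qb ((natU K q.2.ne_zero : Kˣ) : K)) := by
    have e1 : algebraMap K Qb ((j π ^ e : Kˣ) : K) = algebraMap L Qb ((π ^ e : Lˣ) : L) := by
      rw [← map_zpow]
      rfl
    have e2 : algebraMap K Qb ((natU K q.2.ne_zero : Kˣ) : K) =
        algebraMap L Qb ((natU L q.2.ne_zero : Lˣ) : L) := by
      simp
    rw [e1, e2, h2]
  rw [val_eq_iff_ord A (algebraMap K Qb) q.2.ne_zero hA, ord_zpow] at h3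
  have h4 : e * ord (place A (algebraMap K Qb) q.2.ne_zero hA) (j π) = 1 := h3.trans h1
  exact Int.eq_one_of_mul_eq_one_right hepos.le h4

/-- Orders do not change in a tower inside `ℚ_S`, outside `S`. -/
theorem ord_placeL_eq {L K : IntermediateField ℚ Qb} [FiniteDimensional ℚ L]
    [FiniteDimensional ℚ K] (hL : L ≤ QS S) (hK : K ≤ QS S)
    {q : Nat.Primes} (hq : q ∉ S) {A : ValuationSubring Qb} (hA : A.LiesOverPrime (q : ℕ))
    (x : Lˣ) (y : Kˣ) (hxy : A.valuation ((x : L) : Qb) = A.valuation ((y : K) : Qb)) :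
    ord (placeL L A q.2.ne_zero hA) x = ord (placeL K A q.2.ne_zero hA) y := by
  have hL1 := ord_natU_eq_one hL hq (natCast_mem_place (algebraMap L Qb) q.2.ne_zero hA)
  have hK1 := ord_natU_eq_one hK hq (natCast_mem_place (algebraMap K Qb) q.2.ne_zero hA)
  set n := ord (placeL L A q.2.ne_zero hA) x with hn
  have h1 : A.valuation (algebraMap L Qb (x : L)) =
      A.valuation (algebraMap L Qb ((natU L q.2.ne_zero ^ n : Lˣ) : L)) := by
    rw [val_eq_iff_ord A (algebraMap L Qb) q.2.ne_zero hA, ord_zpow, hL1, mul_one]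
  have h2 : A.valuation (algebraMap K Qb (y : K)) =
      A.valuation (algebraMap K Qb ((natU K q.2.ne_zero ^ n : Kˣ) : K)) := by
    have e1 : algebraMap K Qb ((natU K q.2.ne_zero ^ n : Kˣ) : K) =
        algebraMap L Qb ((natU L q.2.ne_zero ^ n : Lˣ) : L) := by
      simp
    rw [e1, ← h1]
    exact hxy.symm
  rw [val_eq_iff_ord A (algebraMap K Qb) q.2.ne_zero hA, ord_zpow, hK1, mul_one] at h2
  exact h2.symm

end Fermat.Agent.CFT.W
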