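import Mathlib
import Fermat.Agent.CFT.W.Unram
import Fermat.Agent.CFT.LC.Mackey

/-!
# Primes above `q` and orbits of the local Galois group
-/

set_option autoImplicit false

open NumberField IsDedekindDomain Polynomial Pointwise
open Fermat.Agent.FrobExists

namespace Fermat.Agent.CFT.W

/-- An algebraic closure of `ℚ`. -/
local notation "Qb" => AlgebraicClosure ℚ

/-- The places of `K` above `q`. -/
abbrev Above (q : ℕ) (K : Type*) [Field K] [NumberField K] : Type _ :=
  {v : HeightOneSpectrum (𝓞 K) // (q : 𝓞 K) ∈ v.asIdeal}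

variable (q : ℕ) [Fact q.Prime]

/-- The absolute Galois group of `ℚ_q`. -/
abbrev Gq : Type := PadicAlgCl q ≃ₐ[ℚ_[q]] PadicAlgCl q

variable (L : IntermediateField ℚ Qb)

/-- The permutation action of the local Galois group on `G_ℚ ⧸ G_L`. -/
noncomputable abbrev permLoc : Gq q →* Equiv.Perm (GQ ⧸ L.fixingSubgroup) :=
  (MulAction.toPermHom GQ (GQ ⧸ L.fixingSubgroup)).comp (localGaloisToGlobal q)

theorem permLoc_mk (τ : Gq q) (g : GQ) :
    permLoc q L τ (QuotientGroup.mk g) = QuotientGroup.mk (localGaloisToGlobal q τ * g) := rfl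

theorem mem_stab_permLoc (g : GQ) (τ : Gq q) :
    τ ∈ Fermat.Agent.CFT.LC.stab (permLoc q L) (QuotientGroup.mk g) ↔
      τ ∈ (localField q L g).fixingSubgroup := by
  rw [Fermat.Agent.CFT.LC.mem_stab, permLoc_mk, mem_fixingSubgroup_localField, eq_comm,
    QuotientGroup.eq, mul_assoc]

theorem stab_permLoc (g : GQ) :
    Fermat.Agent.CFT.LC.stab (permLoc q L) (QuotientGroup.mk g) =
      (localField q L g).fixingSubgroup :=
  Subgroup.ext fun τ => mem_stab_permLoc q L g τ

variable [FiniteDimensional ℚ L]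

/-- The place above `q` attached to `g : G_ℚ`. -/
noncomputable def placeEmb (g : GQ) : Above q L := ⟨pl (emb q L g), natCast_mem_pl _⟩

theorem placeEmb_eq_iff (g g' : GQ) :
    placeEmb q L g = placeEmb q L g' ↔ ∃ τ : Gq q, ∃ u ∈ L.fixingSubgroup,
      g' = localGaloisToGlobal q τ * g * u := by
  rw [Subtype.ext_iff]
  exact pl_emb_eq_iff q L g g'

theorem placeEmb_mul (g : GQ) {u : GQ} (hu : u ∈ L.fixingSubgroup) :
    placeEmb q L (g * u) = placeEmb q L g :=
  ((placeEmb_eq_iff q L _ _).2 ⟨1, u, hu, by simp⟩).symm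

theorem placeEmb_loc_mul (τ : Gq q) (g : GQ) :
    placeEmb q L (localGaloisToGlobal q τ * g) = placeEmb q L g :=
  ((placeEmb_eq_iff q L _ _).2 ⟨τ, 1, one_mem _, by simp⟩).symm

/-- The place above `q` attached to a coset. -/
noncomputable def placeCoset : GQ ⧸ L.fixingSubgroup → Above q L :=
  Quotient.lift (placeEmb q L) fun a b h => by
    have h1 : a⁻¹ * b ∈ L.fixingSubgroup := QuotientGroup.leftRel_apply.1 h
    have := placeEmb_mul q L a h1
    rw [mul_inv_cancel_left] at this
    exact this.symm

@[simp] theorem placeCoset_mk (g : GQ) :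
    placeCoset q L (QuotientGroup.mk g) = placeEmb q L g := rfl

/-- a Galois element representing a place above `q` -/
noncomputable def repG (v : Above q L) : GQ := (exists_pl_emb_eq q L v.1 v.2).choose

theorem placeEmb_repG (v : Above q L) : placeEmb q L (repG q L v) = v :=
  Subtype.ext (exists_pl_emb_eq q L v.1 v.2).choose_spec

/-- The orbits of the local Galois group on `G_ℚ ⧸ G_L` are the places above `q`. -/
noncomputable def orbitsAbove : Fermat.Agent.CFT.LC.Orbits (permLoc q L) (Above q L) where
  cl := placeCoset q L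
  rep v := QuotientGroup.mk (repG q L v)
  cl_perm τ x := by
    obtain ⟨g, rfl⟩ := QuotientGroup.mk_surjective x
    rw [permLoc_mk, placeCoset_mk, placeCoset_mk, placeEmb_loc_mul]
  cl_rep v := placeEmb_repG q L v
  exists_perm x := by
    obtain ⟨g, rfl⟩ := QuotientGroup.mk_surjective x
    obtain ⟨τ, u, hu, h⟩ := (placeEmb_eq_iff q L (repG q L (placeEmb q L g)) g).1
      (placeEmb_repG q L _)
    refine ⟨τ, ?_⟩
    rw [placeCoset_mk, permLoc_mk]
    conv_rhs => rw [h]
    rw [QuotientGroup.eq]
    simpa using hu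

@[simp] theorem orbitsAbove_rep (v : Above q L) :
    (orbitsAbove q L).rep v = QuotientGroup.mk (repG q L v) := rfl

@[simp] theorem orbitsAbove_cl (x : GQ ⧸ L.fixingSubgroup) :
    (orbitsAbove q L).cl x = placeCoset q L x := rfl

instance finite_cosets : Finite (GQ ⧸ L.fixingSubgroup) := by
  have h := IntermediateField.finrank_eq_fixingSubgroup_index (L := L)
  have h1 : 0 < Module.finrank ℚ L := Module.finrank_pos
  rw [h] at h1
  have := Subgroup.finiteIndex_iff.2 h1.ne'
  infer_instance

instance finite_above : Finite (Above q L) := by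
  have : Function.Surjective (placeCoset q L) := fun v =>
    ⟨QuotientGroup.mk (repG q L v), placeEmb_repG q L v⟩
  exact Finite.of_surjective _ this

/-- `∑_{v ∣ q} [L_v : ℚ_q] = [L : ℚ]`. -/
theorem finsum_finrank_localField :
    ∑ᶠ v : Above q L, Module.finrank ℚ_[q] (localField q L (repG q L v)) = Module.finrank ℚ L := by
  classical
  have := Fintype.ofFinite (Above q L)
  have := Fintype.ofFinite (GQ ⧸ L.fixingSubgroup)
  rw [finsum_eq_sum_of_fintype]
  have h1 : ∀ v : Above q L, Module.finrank ℚ_[q] (localField q L (repG q L v)) =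
      Fintype.card {x : GQ ⧸ L.fixingSubgroup // placeCoset q L x = v} := by
    intro v
    rw [IntermediateField.finrank_eq_fixingSubgroup_index, ← stab_permLoc]
    let _ : MulAction (Gq q) (GQ ⧸ L.fixingSubgroup) := MulAction.compHom _ (permLoc q L)
    have h2 : Fermat.Agent.CFT.LC.stab (permLoc q L) (QuotientGroup.mk (repG q L v)) =
        MulAction.stabilizer (Gq q) (QuotientGroup.mk (repG q L v) : GQ ⧸ L.fixingSubgroup) := rfl
    rw [h2, MulAction.index_stabilizer, ← Nat.card_coe_set_eq, ← Nat.card_eq_fintype_card]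
    refine Nat.card_congr (Equiv.subtypeEquivRight fun x => ?_)
    constructor
    · rintro ⟨τ, rfl⟩
      change placeCoset q L (permLoc q L τ (QuotientGroup.mk (repG q L v))) = v
      rw [permLoc_mk, placeCoset_mk, placeEmb_loc_mul, placeEmb_repG]
    · rintro rfl
      obtain ⟨τ, hτ⟩ := (orbitsAbove q L).exists_perm x
      exact ⟨τ, hτ⟩
  simp_rw [h1]
  rw [← Fintype.card_sigma, Fintype.card_congr (Equiv.sigmaFiberEquiv (placeCoset q L)),
    IntermediateField.finrank_eq_fixingSubgroup_index, Subgroup.index, Nat.card_eq_fintype_card]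

end Fermat.Agent.CFT.W
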