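import Mathlib
import Fermat.Agent.CFT.W.Ord
import Fermat.Agent.CFT.W.Padic

/-!
# Weak approximation
-/

set_option autoImplicit false

open NumberField IsDedekindDomain WithZero

namespace Fermat.Agent.CFT.W

section valuations

variable {K : Type*} [Field K] [NumberField K]

/-- Weak approximation at finitely many primes, targets in `K`. -/
theorem exists_valuation_sub_le {ι : Type*} [Finite ι] (v : ι → HeightOneSpectrum (𝓞 K))
    (hv : Function.Injective v) (x : ι → K) (N : ℕ) :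
    ∃ y : K, ∀ i, (v i).valuation K (y - x i) ≤ exp (-(N : ℤ)) := by
  classical
  have := Fintype.ofFinite ι
  obtain ⟨⟨d, hd⟩, hdx⟩ := IsLocalization.exist_integer_multiples_of_finite
    (nonZeroDivisors (𝓞 K)) x
  choose z hz using hdx
  have hd0 : d ≠ 0 := nonZeroDivisors.ne_zero hd
  have hdK : (d : K) ≠ 0 := by
    intro h
    apply hd0
    exact RingOfIntegers.coe_injective (by simpa using h)
  let D : Kˣ := Units.mk0 (d : K) hdK
  obtain ⟨y, hy⟩ := exists_forall_sub_mem_ideal (s := (Finset.univ : Finset ι))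
    (fun i => (v i).asIdeal) (fun i => N + (ord (v i) D).toNat)
    (fun i _ => (v i).prime) (fun i _ j _ hij h => hij (hv (HeightOneSpectrum.ext h)))
    (fun i => z i)
  refine ⟨(y : K) / (d : K), fun i => ?_⟩
  have h1 := hy i (Finset.mem_univ i)
  rw [← HeightOneSpectrum.intValuation_le_pow_iff_mem, ← (v i).valuation_of_algebraMap (K := K)] at h1
  have h2 : algebraMap (𝓞 K) K (z i) = (d : K) * x i := by
    rw [hz i, Algebra.smul_def]
  have h3 : algebraMap (𝓞 K) K (y - z i) = ((y : K) / (d : K) - x i) * (d : K) := by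
    rw [map_sub, h2]
    field_simp
  change (v i).valuation K (algebraMap (𝓞 K) K (y - z i)) ≤ _ at h1
  rw [h3, map_mul] at h1
  have h4 : (v i).valuation K (d : K) = exp (-(ord (v i) D)) := valuation_eq_exp (v i) D
  have h5 : 0 ≤ ord (v i) D := by
    rw [ord_nonneg_iff]
    exact (v i).valuation_le_one d
  rw [h4] at h1
  have h6 : exp (-((N + (ord (v i) D).toNat : ℕ) : ℤ)) = exp (-(N : ℤ)) * exp (-(ord (v i) D)) := by
    rw [← exp_add]
    congr 1
    push_cast
    rw [Int.toNat_of_nonneg h5]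
    ring
  rw [h6] at h1
  exact le_of_mul_le_mul_right h1 exp_pos

end valuations

section padic

variable {K : Type*} [Field K] [NumberField K] (q : ℕ) [Fact q.Prime]

/-- `ℚ_q(φ K)` -/
noncomputable abbrev locK (φ : K →+* PadicAlgCl q) : IntermediateField ℚ_[q] (PadicAlgCl q) :=
  IntermediateField.adjoin ℚ_[q] (Set.range φ)

omit [NumberField K] in
/-- Elements of `ℚ_q(φ K)` are `ℚ_q`-combinations of elements of `φ K`. -/
theorem mem_span_of_mem_locK (φ : K →+* PadicAlgCl q) {x : PadicAlgCl q} (hx : x ∈ locK q φ) :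
    x ∈ Submodule.span ℚ_[q] (Set.range φ) := by
  have h1 : ∀ y ∈ Set.range φ, IsAlgebraic ℚ_[q] y := fun y _ =>
    Algebra.IsAlgebraic.isAlgebraic y
  have h2 : x ∈ (locK q φ).toSubalgebra := hx
  rw [IntermediateField.adjoin_toSubalgebra_of_isAlgebraic h1] at h2
  have h3 : (Algebra.adjoin ℚ_[q] (Set.range φ)).toSubmodule =
      Submodule.span ℚ_[q] (Set.range φ) := by
    rw [Algebra.adjoin_eq_span]
    congr 1
    have : (Submonoid.closure (Set.range φ)) = (MonoidHom.mrange (φ : K →* PadicAlgCl q)) := by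
      apply le_antisymm
      · rw [Submonoid.closure_le]
        rintro _ ⟨y, rfl⟩
        exact ⟨y, rfl⟩
      · rintro _ ⟨y, rfl⟩
        exact Submonoid.subset_closure ⟨y, rfl⟩
    rw [this]
    rfl
  rw [← h3]
  exact h2

/-- Density of `φ K` in `ℚ_q(φ K)`. -/
theorem exists_norm_sub_lt (φ : K →+* PadicAlgCl q) {x : PadicAlgCl q} (hx : x ∈ locK q φ)
    {ε : ℝ} (hε : 0 < ε) : ∃ y : K, ‖φ y - x‖ < ε := by
  have h1 := mem_span_of_mem_locK q φ hx
  clear hx
  induction h1 using Submodule.span_induction generalizing ε with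
  | mem x h =>
    obtain ⟨y, rfl⟩ := h
    exact ⟨y, by rw [sub_self, norm_zero]; exact hε⟩
  | zero => exact ⟨0, by rw [map_zero, sub_self, norm_zero]; exact hε⟩
  | add a b _ _ iha ihb =>
    obtain ⟨y, hy⟩ := iha (half_pos hε)
    obtain ⟨z, hz⟩ := ihb (half_pos hε)
    refine ⟨y + z, ?_⟩
    rw [map_add, add_sub_add_comm]
    calc _ ≤ _ := norm_add_le _ _
      _ < ε := by linarith
  | smul c a _ iha =>
    -- approximate the scalar by a rational number
    have hc1 : 0 < ‖c‖ + 1 := by positivity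
    obtain ⟨y, hy⟩ := iha (ε := min (ε / 2 / (‖c‖ + 1)) 1) (by positivity)
    have hy1 : ‖φ y - a‖ < ε / 2 / (‖c‖ + 1) := hy.trans_le (min_le_left _ _)
    have hy2 : ‖φ y‖ ≤ ‖a‖ + 1 := by
      have : φ y = (φ y - a) + a := by ring
      rw [this]
      calc _ ≤ _ := norm_add_le _ _
        _ ≤ ‖a‖ + 1 := by linarith [hy.trans_le (min_le_right _ _)]
    have ha1 : 0 < ‖a‖ + 1 := by positivity
    obtain ⟨r, hr⟩ := Metric.denseRange_iff.1 (Padic.denseRange_ratCast q) c
      (ε / 2 / (‖a‖ + 1)) (by positivity)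
    refine ⟨(r : K) * y, ?_⟩
    rw [map_mul, map_ratCast]
    have e : (r : PadicAlgCl q) * φ y - c • a =
        ((r : PadicAlgCl q) - algebraMap ℚ_[q] (PadicAlgCl q) c) * φ y +
          algebraMap ℚ_[q] (PadicAlgCl q) c * (φ y - a) := by
      rw [Algebra.smul_def]
      ring
    rw [e]
    have hr' : ‖(r : PadicAlgCl q) - algebraMap ℚ_[q] (PadicAlgCl q) c‖ < ε / 2 / (‖a‖ + 1) := by
      have h2 : (r : PadicAlgCl q) - algebraMap ℚ_[q] (PadicAlgCl q) c =
          algebraMap ℚ_[q] (PadicAlgCl q) ((r : ℚ_[q]) - c) := by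
        rw [map_sub, map_ratCast]
      rw [h2, norm_algebraMap', ← dist_eq_norm, dist_comm]
      exact hr
    calc _ ≤ _ := norm_add_le _ _
      _ = ‖(r : PadicAlgCl q) - algebraMap ℚ_[q] (PadicAlgCl q) c‖ * ‖φ y‖ + ‖c‖ * ‖φ y - a‖ := by
        rw [norm_mul, norm_mul, norm_algebraMap']
      _ < ε := by
        have h3 : ‖(r : PadicAlgCl q) - algebraMap ℚ_[q] (PadicAlgCl q) c‖ * ‖φ y‖ ≤
            ε / 2 / (‖a‖ + 1) * (‖a‖ + 1) := by gcongr
        have h4 : ‖c‖ * ‖φ y - a‖ ≤ ‖c‖ * (ε / 2 / (‖c‖ + 1)) := by gcongr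
        have h5 : ε / 2 / (‖a‖ + 1) * (‖a‖ + 1) = ε / 2 := by field_simp
        have h6 : ‖c‖ * (ε / 2 / (‖c‖ + 1)) < ε / 2 := by
          rw [← mul_div_assoc, div_lt_iff₀ hc1]
          nlinarith [norm_nonneg c]
        linarith

/-- **Weak approximation.** -/
theorem weak_approximation {ι : Type*} [Finite ι] (q : ι → ℕ) [∀ i, Fact (q i).Prime]
    (φ : ∀ i, K →+* PadicAlgCl (q i)) (hφ : Function.Injective fun i => pl (φ i))
    (x : ∀ i, PadicAlgCl (q i)) (hx : ∀ i, x i ∈ locK (q i) (φ i)) {ε : ℝ} (hε : 0 < ε) :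
    ∃ y : K, ∀ i, ‖φ i y - x i‖ < ε := by
  classical
  have := Fintype.ofFinite ι
  choose z hz using fun i => exists_norm_sub_lt (q i) (φ i) (hx i) (half_pos hε)
  choose π hπ using fun i => exists_ord_eq_one (pl (φ i))
  have hπ1 : ∀ i, ‖φ i (π i : K)‖ < 1 := fun i => by
    rw [← pl_valuation_lt_one_iff, ← ord_pos_iff, hπ i]
    exact one_pos
  have hN : ∀ i, ∃ N : ℕ, ‖φ i (π i : K)‖ ^ N < ε / 2 := fun i =>
    exists_pow_lt_of_lt_one (half_pos hε) (hπ1 i)
  choose N hN using hN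
  obtain ⟨M, hM⟩ : ∃ M, ∀ i, N i ≤ M := ⟨Finset.univ.sup N, fun i => Finset.le_sup (Finset.mem_univ i)⟩
  obtain ⟨y, hy⟩ := exists_valuation_sub_le (fun i => pl (φ i)) hφ z M
  refine ⟨y, fun i => ?_⟩
  have h1 : (pl (φ i)).valuation K (y - z i) ≤ (pl (φ i)).valuation K ((π i ^ M : Kˣ) : K) := by
    rw [valuation_eq_exp, ord_pow, hπ i, mul_one]
    exact hy i
  rw [pl_valuation_le_iff, Units.val_pow_eq_pow_val, map_pow, norm_pow, map_sub] at h1
  have h2 : ‖φ i (π i : K)‖ ^ M ≤ ‖φ i (π i : K)‖ ^ N i :=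
    pow_le_pow_of_le_one (norm_nonneg _) (hπ1 i).le (hM i)
  have e : φ i y - x i = (φ i y - φ i (z i)) + (φ i (z i) - x i) := by ring
  rw [e]
  calc _ ≤ _ := norm_add_le _ _
    _ < ε := by linarith [hz i, hN i]

end padic

end Fermat.Agent.CFT.W
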